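/-
S19 Part B (Weil pairing on a function field in one variable over an algebraically closed field of
characteristic zero).  Definitions only.  Owner: helper32.

`evDiv f D = ∏_v f(v)^{D v}`;  a class `x` killed by `n` is represented by `(D, f)` with
`div f = n D`;  `e_n(x, y) = f_x(D_y) / f_y(D_x)` for representatives with disjoint supports.
-/
import Mathlib
import Fermat.Prelude.Def_AlgebraicCurve_BaseChangeGalois
import Fermat.Prelude.Def_AlgebraicCurve_DivisorPushPull
import Fermat.Agent.S27.Defs

set_option autoImplicit false

noncomputable section

namespace Fermat.Agent.S19.Weil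

open AlgebraicCurve Fermat.Agent.S24.FF Fermat.Agent.S27

variable {K F : Type*} [Field K] [Field F] [Algebra K F]

/-- The value of a function on a divisor. -/
def evDiv (f : F) (D : Divisor K F) : K := D.prod fun v m => ev v f ^ m

/-- A representative of a divisor class killed by `n`. -/
structure TorsRep (n : ℕ) (x : Pic0 K F) where
  /-- the divisor -/
  D : Divisor K F
  /-- the function with divisor `n D` -/
  f : F
  deg : Divisor.degree D = 0
  cls_eq : cls D = x
  div : IsDivOf ((n : ℤ) • D) f

/-- The Weil pairing computed on representatives (meaningful for disjoint supports). -/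
def weilRep {n : ℕ} {x y : Pic0 K F} (a : TorsRep n x) (b : TorsRep n y) : K :=
  evDiv a.f b.D / evDiv b.f a.D

open Classical in
/-- The Weil pairing (junk value `1` if there are no representatives). -/
def weil (n : ℕ) (x y : Pic0 K F) : K :=
  if h : ∃ (a : TorsRep n x) (b : TorsRep n y), Disjoint a.D.support b.D.support then
    weilRep h.choose h.choose_spec.choose
  else 1

/-- `f` is a unit at every place of the support of `D`. -/
def UnitOn (f : F) (D : Divisor K F) : Prop := f ≠ 0 ∧ ∀ v : Place K F, D v ≠ 0 → v.ord f = 0

universe u v

/-- `Pic0` of every function field over `K` is a divisible group. -/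
def Pic0Divisible (K : Type u) [Field K] : Prop :=
  ∀ (E : Type v) [Field E] [Algebra K E] [IsFF1 K E] [NonConst K E] (m : ℕ), 0 < m →
    ∀ b : Pic0 K E, ∃ a : Pic0 K E, (m : ℤ) • a = b

end Fermat.Agent.S19.Weil
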