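/-
S19 Part B (Weil pairing), B0: calculus of `evDiv`.
-/
import Fermat.Agent.S19.Weil.Defs
import Fermat.Agent.S27.Ev
import Fermat.Agent.S27.Cls

set_option autoImplicit false

noncomputable section

namespace Fermat.Agent.S19.Weil

open AlgebraicCurve Fermat.Agent.S24.FF Fermat.Agent.S27 IntermediateField

variable {K F : Type*} [Field K] [Field F] [Algebra K F]

theorem evDiv_zero (f : F) : evDiv f (0 : Divisor K F) = 1 := Finsupp.prod_zero_index

theorem evDiv_single (f : F) (v : Place K F) (m : ℤ) :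
    evDiv f (Finsupp.single v m) = ev v f ^ m :=
  Finsupp.prod_single_index (zpow_zero _)

/-- `evDiv` as a product over any finite set containing the support. -/
theorem evDiv_eq_prod (f : F) {D : Divisor K F} {s : Finset (Place K F)} (hs : D.support ⊆ s) :
    evDiv f D = ∏ v ∈ s, ev v f ^ D v :=
  Finsupp.prod_of_support_subset D hs _ fun _ _ => zpow_zero _

variable [IsAlgClosed K] [IsFF1 K F]

theorem UnitOn.ev_ne_zero {f : F} {D : Divisor K F} (h : UnitOn f D) {v : Place K F}
    (hv : D v ≠ 0) : ev v f ≠ 0 := ev_ne_zero_of_ord_eq_zero h.1 (h.2 v hv)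

theorem UnitOn.evDiv_ne_zero {f : F} {D : Divisor K F} (h : UnitOn f D) : evDiv f D ≠ 0 := by
  unfold evDiv Finsupp.prod
  exact Finset.prod_ne_zero_iff.2 fun v hv =>
    zpow_ne_zero _ (h.ev_ne_zero (Finsupp.mem_support_iff.1 hv))

omit [IsAlgClosed K] [IsFF1 K F] in
theorem UnitOn.add {f : F} {D E : Divisor K F} (h : UnitOn f D) (h' : UnitOn f E) :
    UnitOn f (D + E) := by
  refine ⟨h.1, fun v hv => ?_⟩
  by_cases hD : D v = 0
  · refine h'.2 v fun hE => hv ?_
    rw [Finsupp.add_apply, hD, hE, add_zero]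
  · exact h.2 v hD

omit [IsAlgClosed K] [IsFF1 K F] in
theorem UnitOn.neg {f : F} {D : Divisor K F} (h : UnitOn f D) : UnitOn f (-D) :=
  ⟨h.1, fun v hv => h.2 v fun hD => hv (by rw [Finsupp.neg_apply, hD, neg_zero])⟩

omit [IsAlgClosed K] [IsFF1 K F] in
theorem UnitOn.sub {f : F} {D E : Divisor K F} (h : UnitOn f D) (h' : UnitOn f E) :
    UnitOn f (D - E) := by
  rw [sub_eq_add_neg]
  exact h.add h'.neg

omit [IsAlgClosed K] [IsFF1 K F] in
theorem UnitOn.zsmul {f : F} {D : Divisor K F} (h : UnitOn f D) (m : ℤ) : UnitOn f (m • D) :=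
  ⟨h.1, fun v hv => h.2 v fun hD => hv (by rw [Finsupp.smul_apply, hD, smul_zero])⟩

omit [IsAlgClosed K] [IsFF1 K F] in
theorem UnitOn.mul {f g : F} {D : Divisor K F} (h : UnitOn f D) (h' : UnitOn g D) :
    UnitOn (f * g) D :=
  ⟨mul_ne_zero h.1 h'.1, fun v hv => by rw [v.ord_mul h.1 h'.1, h.2 v hv, h'.2 v hv, add_zero]⟩

omit [IsAlgClosed K] [IsFF1 K F] in
theorem UnitOn.inv {f : F} {D : Divisor K F} (h : UnitOn f D) : UnitOn f⁻¹ D :=
  ⟨inv_ne_zero h.1, fun v hv => by rw [v.ord_inv, h.2 v hv, neg_zero]⟩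

omit [IsAlgClosed K] [IsFF1 K F] in
theorem unitOn_one (D : Divisor K F) : UnitOn (1 : F) D :=
  ⟨one_ne_zero, fun v _ => v.ord_one⟩

omit [IsAlgClosed K] [IsFF1 K F] in
theorem UnitOn.pow {f : F} {D : Divisor K F} (h : UnitOn f D) (m : ℕ) : UnitOn (f ^ m) D := by
  induction m with
  | zero => rw [pow_zero]; exact unitOn_one D
  | succ m ih => rw [pow_succ]; exact ih.mul h

omit [IsAlgClosed K] [IsFF1 K F] in
theorem unitOn_const {c : K} (hc : c ≠ 0) (D : Divisor K F) : UnitOn (algebraMap K F c) D :=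
  ⟨by rwa [Ne, map_eq_zero], fun v _ => ord_algebraMap v c⟩

theorem evDiv_add {f : F} {D E : Divisor K F} (h : UnitOn f D) (h' : UnitOn f E) :
    evDiv f (D + E) = evDiv f D * evDiv f E := by
  classical
  refine Finsupp.prod_add_index (fun _ _ => zpow_zero _) fun v hv a b => ?_
  refine zpow_add₀ ?_ a b
  rcases Finset.mem_union.1 hv with hv | hv
  · exact h.ev_ne_zero (Finsupp.mem_support_iff.1 hv)
  · exact h'.ev_ne_zero (Finsupp.mem_support_iff.1 hv)

omit [IsAlgClosed K] [IsFF1 K F] in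
theorem evDiv_neg' (f : F) (D : Divisor K F) : evDiv f (-D) = (evDiv f D)⁻¹ := by
  rw [evDiv_eq_prod f (s := D.support) (by rw [Finsupp.support_neg]),
    evDiv_eq_prod f (s := D.support) subset_rfl, ← Finset.prod_inv_distrib]
  exact Finset.prod_congr rfl fun v _ => by rw [Finsupp.neg_apply, zpow_neg]

theorem evDiv_neg {f : F} {D : Divisor K F} (h : UnitOn f D) : evDiv f (-D) = (evDiv f D)⁻¹ :=
  evDiv_neg' f D

theorem evDiv_sub {f : F} {D E : Divisor K F} (h : UnitOn f D) (h' : UnitOn f E) :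
    evDiv f (D - E) = evDiv f D / evDiv f E := by
  rw [sub_eq_add_neg, evDiv_add h h'.neg, evDiv_neg h', div_eq_mul_inv]

theorem evDiv_zsmul {f : F} {D : Divisor K F} (h : UnitOn f D) (m : ℤ) :
    evDiv f (m • D) = evDiv f D ^ m := by
  rw [evDiv_eq_prod f (s := D.support) Finsupp.support_smul,
    evDiv_eq_prod f (s := D.support) subset_rfl, ← Finset.prod_zpow]
  exact Finset.prod_congr rfl fun v _ => by
    rw [Finsupp.smul_apply, smul_eq_mul, mul_comm, zpow_mul]

theorem evDiv_mul {f g : F} {D : Divisor K F} (h : UnitOn f D) (h' : UnitOn g D) :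
    evDiv (f * g) D = evDiv f D * evDiv g D := by
  unfold evDiv Finsupp.prod
  rw [← Finset.prod_mul_distrib]
  refine Finset.prod_congr rfl fun v hv => ?_
  have hv' := Finsupp.mem_support_iff.1 hv
  beta_reduce
  rw [ev_mul (h.2 v hv').ge (h'.2 v hv').ge, mul_zpow]

theorem evDiv_inv {f : F} {D : Divisor K F} (h : UnitOn f D) : evDiv f⁻¹ D = (evDiv f D)⁻¹ := by
  unfold evDiv Finsupp.prod
  rw [← Finset.prod_inv_distrib]
  refine Finset.prod_congr rfl fun v hv => ?_
  have hv' := Finsupp.mem_support_iff.1 hv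
  beta_reduce
  rw [ev_inv h.1 (h.2 v hv'), inv_zpow]

omit [IsAlgClosed K] [IsFF1 K F] in
theorem evDiv_one (D : Divisor K F) : evDiv (1 : F) D = 1 := by
  unfold evDiv Finsupp.prod
  refine Finset.prod_eq_one fun v _ => ?_
  have : ev v (1 : F) = 1 := by
    have := ev_algebraMap (F := F) v (1 : K)
    rwa [map_one] at this
  beta_reduce
  rw [this, one_zpow]

theorem evDiv_pow {f : F} {D : Divisor K F} (h : UnitOn f D) (m : ℕ) :
    evDiv (f ^ m) D = evDiv f D ^ m := by
  induction m with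
  | zero => rw [pow_zero, pow_zero, evDiv_one]
  | succ m ih => rw [pow_succ, pow_succ, evDiv_mul (h.pow m) h, ih]

theorem evDiv_degree_eq_sum (D : Divisor K F) : Divisor.degree D = D.sum fun _ n => n := by
  induction D using Finsupp.induction_linear with
  | zero => simp
  | add D E hD hE =>
    rw [map_add, hD, hE, Finsupp.sum_add_index' (fun _ => rfl) (fun _ _ _ => rfl)]
  | single v n =>
    rw [Divisor.degree_single, deg_eq_one, Finsupp.sum_single_index rfl]
    norm_num

/-- constants: `c(D) = c ^ deg D`. -/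
theorem evDiv_const {c : K} (hc : c ≠ 0) (D : Divisor K F) :
    evDiv (algebraMap K F c) D = c ^ Divisor.degree D := by
  induction D using Finsupp.induction_linear with
  | zero => rw [evDiv_zero, map_zero, zpow_zero]
  | add D E hD hE =>
    rw [evDiv_add (unitOn_const hc D) (unitOn_const hc E), hD, hE, map_add, zpow_add₀ hc]
  | single v n =>
    rw [evDiv_single, ev_algebraMap, Divisor.degree_single, deg_eq_one]
    norm_num

/-- semilinear automorphisms -/
theorem ev_smul (g : SemilinearAut K F) (v : Place K F) (f : F) :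
    ev (g • v) (g • f) = SemilinearAut.baseAut g (ev v f) := by
  by_cases h : 0 ≤ v.ord f
  · refine ev_eq_of_isVal ?_
    rcases isVal_ev h with h1 | h1
    · left
      conv_lhs => rw [h1]
      exact SemilinearAut.smul_algebraMap g _
    · right
      rw [← SemilinearAut.smul_algebraMap, ← smul_sub, SemilinearAut.ord_smul]
      exact h1
  · have h' : v.ord f < 0 := not_le.1 h
    rw [ev_of_ord_neg h', map_zero]
    exact ev_of_ord_neg (by rwa [SemilinearAut.ord_smul])

theorem evDiv_smul (g : SemilinearAut K F) (f : F) (D : Divisor K F) :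
    evDiv (g • f) (g • D) = SemilinearAut.baseAut g (evDiv f D) := by
  unfold evDiv
  rw [SemilinearAut.divisor_smul_def, Finsupp.prod_mapDomain_index_inj (MulAction.injective g)]
  unfold Finsupp.prod
  rw [map_prod]
  exact Finset.prod_congr rfl fun v _ => by beta_reduce; rw [ev_smul, map_zpow₀]

omit [IsAlgClosed K] [IsFF1 K F] in
theorem UnitOn.smul (g : SemilinearAut K F) {f : F} {D : Divisor K F} (h : UnitOn f D) :
    UnitOn (g • f) (g • D) := by
  refine ⟨by simpa using h.1, fun w hw => ?_⟩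
  rw [SemilinearAut.divisor_smul_apply] at hw
  have h1 := SemilinearAut.ord_smul g (g⁻¹ • w) f
  rw [smul_inv_smul] at h1
  rw [h1]
  exact h.2 _ hw

omit [IsAlgClosed K] [IsFF1 K F] in
theorem IsDivOf.smul (g : SemilinearAut K F) {f : F} {D : Divisor K F} (h : IsDivOf D f) :
    IsDivOf (g • D) (g • f) := by
  refine ⟨by simpa using h.1, fun w => ?_⟩
  have h1 := SemilinearAut.ord_smul g (g⁻¹ • w) f
  rw [smul_inv_smul] at h1
  rw [SemilinearAut.divisor_smul_apply, h1]
  exact h.2 _

omit [IsAlgClosed K] [IsFF1 K F] in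
theorem cls_smul (g : SemilinearAut K F) {D : Divisor K F} (hD : Divisor.degree D = 0) :
    cls (g • D) = g • cls D := by
  rw [cls_eq_mk hD, cls_eq_mk (by rwa [SemilinearAut.degree_smul]), SemilinearAut.pic0_smul_mk]
  rfl

end Fermat.Agent.S19.Weil
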