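/-
S19 Part B (Weil pairing), B1b: the value of a norm at a place.
`Bv F' v` (integral closure of `O_v` in `F'`), `fiberEquiv`, `ord_norm`, `sum_ramificationIndex` are in
`S37/HeckeInputs`.  The residue norm formula is `Lib/ResidueNorm`.
(architect helper32, proof helper291)
-/
import Fermat.Agent.S19.Weil.Defs
import Fermat.Agent.S27.Ev
import Fermat.Agent.S37.HeckeInputs.Norm
import Fermat.Agent.S37.HeckeInputs.FundId
import Fermat.Agent.S37.HeckeInputs.Principal
import Fermat.Agent.Lib.ResidueNorm.Dedekind

set_option autoImplicit false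

noncomputable section

namespace Fermat.Agent.S19.Weil

open AlgebraicCurve Fermat.Agent.S24.FF Fermat.Agent.S27 IntermediateField
open Fermat.Agent.S37.HeckeInputs IsDedekindDomain WithZero

variable {K F F' : Type*} [Field K] [Field F] [Field F'] [Algebra K F] [Algebra K F']
  [Algebra F F'] [IsScalarTower K F F'] [IsAlgClosed K] [CharZero K] [IsFF1 K F] [IsFF1 K F']
  [Module.Finite F F']

attribute [local instance] Ideal.Quotient.field

omit [IsAlgClosed K] [IsFF1 K F] [IsFF1 K F'] in
/-- an element which is integral at all places over `v` lies in `B_v`. -/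
theorem normEv_exists_Bv [HasPrincipalDivisors K F'] (v : Place K F) (z : F')
    (hz : ∀ w ∈ v.fiber F', 0 ≤ w.ord z) : ∃ b : Bv F' v, algebraMap (Bv F' v) F' b = z := by
  refine HeightOneSpectrum.mem_integers_of_valuation_le_one F' z fun P => ?_
  obtain ⟨w, rfl⟩ := (fiberEquiv v).surjective P
  have h1 := hz w.1 w.2
  rw [← ofHeightOneSpectrum_fiberEquiv v w, ord_ofHeightOneSpectrum] at h1
  rcases eq_or_ne ((fiberEquiv v w).valuation F' z) 0 with h0 | h0
  · rw [h0]; exact zero_le
  · rw [← exp_log h0, ← exp_zero, exp_le_exp]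
    omega

omit [IsAlgClosed K] [CharZero K] [IsFF1 K F] in
/-- elements of the maximal ideal of `O_v`. -/
theorem normEv_inMax_of_mem (v : Place K F) (x : v.toValuationSubring)
    (hx : x ∈ IsLocalRing.maximalIdeal v.toValuationSubring) : InMax v (x : F) := by
  rcases eq_or_ne x 0 with rfl | hx0
  · exact Or.inl rfl
  right
  have hx' : (x : F) ≠ 0 := by simpa using hx0
  rcases (ord_nonneg_of_mem v x.2).lt_or_eq with h1 | h1
  · exact h1
  · exfalso
    rw [IsLocalRing.mem_maximalIdeal, mem_nonunits_iff] at hx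
    apply hx
    have hinv : (x : F)⁻¹ ∈ v.toValuationSubring :=
      mem_of_ord_nonneg v (by rw [v.ord_inv]; omega)
    exact ⟨⟨x, ⟨_, hinv⟩, Subtype.ext (mul_inv_cancel₀ hx'), Subtype.ext (inv_mul_cancel₀ hx')⟩, rfl⟩

omit [IsFF1 K F] in
/-- the residue class of `b` at the prime `P` is the constant `ev w b`. -/
theorem normEv_mk_eq (v : Place K F) (P : HeightOneSpectrum (Bv F' v)) (b : Bv F' v) :
    Ideal.Quotient.mk P.asIdeal b = Ideal.Quotient.mk P.asIdeal (algebraMap K (Bv F' v)
      (ev (Place.ofHeightOneSpectrum (K := K) P) (algebraMap (Bv F' v) F' b))) := by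
  set w := Place.ofHeightOneSpectrum (K := K) (F := F') P with hw
  set c := ev w (algebraMap (Bv F' v) F' b) with hc
  have hval : IsVal w (algebraMap (Bv F' v) F' b) c :=
    isVal_ev (ord_nonneg_of_mem _ (algebraMap_mem_ofHeightOneSpectrum P b))
  rw [Ideal.Quotient.eq]
  have h6 : algebraMap (Bv F' v) F' (b - algebraMap K (Bv F' v) c)
      = algebraMap (Bv F' v) F' b - algebraMap K F' c := by
    rw [map_sub, ← IsScalarTower.algebraMap_apply K (Bv F' v) F']
  rcases hval with hc' | hc'
  · have : b - algebraMap K (Bv F' v) c = 0 := by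
      apply (IsFractionRing.injective (Bv F' v) F')
      rw [h6, hc', sub_self, map_zero]
    rw [this]; exact zero_mem _
  · rw [hw, ord_ofHeightOneSpectrum, ← h6] at hc'
    rw [← HeightOneSpectrum.valuation_lt_one_iff_mem (K := F')]
    have hne : P.valuation F' (algebraMap (Bv F' v) F' (b - algebraMap K (Bv F' v) c)) ≠ 0 := by
      intro h0
      rw [h0] at hc'
      simp at hc'
    rw [← exp_log hne, ← exp_zero, exp_lt_exp]
    omega

/-- B1b : THE local computation.  `B_v / π B_v = ∏_w B_v / P_w^{e_w}`, multiplication by `z` on the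
`w`-block is `z(w) + nilpotent`, the block has `K`-dimension `e_w`. -/
theorem ev_norm [HasPrincipalDivisors K F'] (v : Place K F) (z : F') (hz0 : z ≠ 0)
    (hz : ∀ w ∈ v.fiber F', w.ord z = 0) :
    ev v (Algebra.norm F z) = ∏ w ∈ v.fiber F', ev w z ^ (w.ramificationIndex F) := by
  classical
  obtain ⟨b, rfl⟩ := normEv_exists_Bv v z fun w hw => (hz w hw).ge
  let _ : Fintype (HeightOneSpectrum (Bv F' v)) := Fintype.ofEquiv _ (fiberEquiv v)
  obtain ⟨π, hπ⟩ := IsDiscreteValuationRing.exists_irreducible v.toValuationSubring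
  set p : Ideal v.toValuationSubring := IsLocalRing.maximalIdeal v.toValuationSubring with hp
  have hpS : p.map (algebraMap v.toValuationSubring (Bv F' v))
      = Ideal.span {algebraMap v.toValuationSubring (Bv F' v) π} := by
    rw [hp, hπ.maximalIdeal_eq, Ideal.map_span, Set.image_singleton]
  have hπS : algebraMap v.toValuationSubring (Bv F' v) π ≠ 0 := by
    intro h
    apply hπ.ne_zero
    have h3 : algebraMap (Bv F' v) F' (algebraMap v.toValuationSubring (Bv F' v) π)
        = algebraMap F F' (π : F) := rfl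
    rw [h, map_zero] at h3
    have h4 : (π : F) = 0 := (algebraMap F F').injective (by rw [← h3, map_zero])
    exact Subtype.ext h4
  have hpS0 : p.map (algebraMap v.toValuationSubring (Bv F' v)) ≠ ⊥ := by
    rw [hpS, Ne, Ideal.span_singleton_eq_bot]
    exact hπS
  set e : HeightOneSpectrum (Bv F' v) → ℕ := fun P =>
    (Associates.mk P.asIdeal).count
      (Associates.mk (p.map (algebraMap v.toValuationSubring (Bv F' v)))).factors with he
  have hfac : p.map (algebraMap v.toValuationSubring (Bv F' v)) = ∏ P, P.asIdeal ^ e P := by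
    conv_lhs => rw [← Ideal.finprod_heightOneSpectrum_factorization hpS0]
    rw [finprod_eq_prod_of_fintype]
    rfl
  have hmaxI : ∀ P : HeightOneSpectrum (Bv F' v), P.asIdeal.IsMaximal := fun P => P.isMaximal
  have hlies : ∀ P : HeightOneSpectrum (Bv F' v), P.asIdeal.LiesOver p :=
    fun P => liesOver_maximalIdeal v P
  have hmain := Fermat.Agent.Lib.ResidueNorm.mk_intNorm_eq_prod p
    (fun P : HeightOneSpectrum (Bv F' v) => P.asIdeal) e hpS0 hfac b
  -- the local norms
  have hloc : ∀ P : HeightOneSpectrum (Bv F' v),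
      Algebra.norm (v.toValuationSubring ⧸ p) (Ideal.Quotient.mk P.asIdeal b)
        = Ideal.Quotient.mk p (algebraMap K v.toValuationSubring
          (ev (Place.ofHeightOneSpectrum (K := K) P) (algebraMap (Bv F' v) F' b))) := by
    intro P
    have := hlies P
    rw [normEv_mk_eq v P b]
    set c := ev (Place.ofHeightOneSpectrum (K := K) P) (algebraMap (Bv F' v) F' b)
    have h5 : Ideal.Quotient.mk P.asIdeal (algebraMap K (Bv F' v) c)
        = algebraMap (v.toValuationSubring ⧸ p) (Bv F' v ⧸ P.asIdeal)
          (Ideal.Quotient.mk p (algebraMap K v.toValuationSubring c)) := by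
      rw [IsScalarTower.algebraMap_apply K v.toValuationSubring (Bv F' v)]
      rfl
    rw [h5, Algebra.norm_algebraMap]
    have h1 := inertiaDeg_eq_one K F' p P
    rw [Ideal.inertiaDeg'_algebraMap] at h1
    rw [h1, pow_one]
  -- the ramification indices
  have hram : ∀ w : {w : Place K F' // w ∈ v.fiber F'},
      e (fiberEquiv v w) = w.1.ramificationIndex F := by
    intro w
    have h1 := ord_ofHeightOneSpectrum_algebraMap (K := K) v (fiberEquiv v w) _ hπS
    rw [ofHeightOneSpectrum_fiberEquiv, ← hpS] at h1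
    have h2 := w.1.ord_restrict (F := F) (π : F)
    rw [Place.mem_fiber.1 w.2, v.ord_coe_irreducible hπ, mul_one] at h2
    have h3 : algebraMap (Bv F' v) F' (algebraMap v.toValuationSubring (Bv F' v) π)
        = algebraMap F F' (π : F) := rfl
    rw [h3, h2] at h1
    exact_mod_cast h1.symm
  simp only [hloc, ← map_pow, ← map_prod] at hmain
  have hmem := normEv_inMax_of_mem v _ (Ideal.Quotient.eq.1 hmain)
  have h3 : ((Algebra.intNorm v.toValuationSubring (Bv F' v) b : v.toValuationSubring) : F)
      = Algebra.norm F (algebraMap (Bv F' v) F' b) :=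
    Algebra.algebraMap_intNorm (A := v.toValuationSubring) (K := F) (L := F') (B := Bv F' v) b
  rw [AddSubgroupClass.coe_sub, h3, Place.coe_algebraMap, ← isVal_iff_inMax] at hmem
  rw [ev_eq_of_isVal hmem, ← Finset.prod_coe_sort (v.fiber F'), ← (fiberEquiv v).prod_comp]
  refine Finset.prod_congr rfl fun w _ => ?_
  rw [hram, ofHeightOneSpectrum_fiberEquiv]

end Fermat.Agent.S19.Weil
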