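/-
S19 Part B (Weil pairing), B1: evaluation, push-forward, pull-back, norms.
(architect helper32, proofs helper249)
-/
import Fermat.Agent.S19.Weil.EvDiv
import Fermat.Agent.S19.Weil.NormEv

set_option autoImplicit false

noncomputable section

namespace Fermat.Agent.S19.Weil

open AlgebraicCurve Fermat.Agent.S24.FF Fermat.Agent.S27 IntermediateField
open Fermat.Agent.S37.HeckeInputs

variable {K F F' : Type*} [Field K] [Field F] [Field F'] [Algebra K F] [Algebra K F']
  [Algebra F F'] [IsScalarTower K F F'] [IsAlgClosed K] [CharZero K] [IsFF1 K F] [IsFF1 K F']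
  [Module.Finite F F']

/-- B1a -/
theorem ev_algebraMap_eq (w : Place K F') (f : F) :
    ev w (algebraMap F F' f) = ev (w.restrict F) f := by
  have he : (0 : ℤ) < (w.ramificationIndex F : ℤ) := by
    exact_mod_cast w.ramificationIndex_pos (F := F)
  rcases lt_or_ge ((w.restrict F).ord f) 0 with h | h
  · rw [ev_of_ord_neg h, ev_of_ord_neg]
    rw [w.ord_restrict f]
    exact mul_neg_of_pos_of_neg he h
  · apply ev_eq_of_isVal
    rcases isVal_ev h with h1 | h1
    · left
      conv_lhs => rw [h1]
      rw [← IsScalarTower.algebraMap_apply]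
    · right
      rw [IsScalarTower.algebraMap_apply K F F', ← map_sub, w.ord_restrict]
      exact mul_pos he h1

/-- the two halves of `UnitOn` on a sum with disjoint supports. -/
private theorem norm_unitOn_single_add {E : Type*} [Field E] [Algebra K E] {g : E} {v : Place K E}
    {n : ℤ} {D : Divisor K E} (hv : v ∉ D.support) (h : UnitOn g (Finsupp.single v n + D)) :
    UnitOn g (Finsupp.single v n) ∧ UnitOn g D := by
  classical
  rw [Finsupp.notMem_support_iff] at hv
  refine ⟨⟨h.1, fun u hu => ?_⟩, ⟨h.1, fun u hu => ?_⟩⟩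
  · apply h.2
    rcases eq_or_ne u v with rfl | huv
    · rwa [Finsupp.add_apply, hv, add_zero]
    · rw [Finsupp.single_apply, if_neg huv.symm] at hu
      exact absurd rfl hu
  · apply h.2
    have huv : v ≠ u := by
      rintro rfl
      exact hu hv
    rwa [Finsupp.add_apply, Finsupp.single_apply, if_neg huv, zero_add]

private theorem norm_unitOn_pushforward {f : F} {D : Divisor K F'}
    (hf : UnitOn (algebraMap F F' f) D) : UnitOn f (Divisor.pushforward F D) := by
  classical
  refine ⟨fun h => hf.1 (by rw [h, map_zero]), fun v hv => ?_⟩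
  rw [Divisor.pushforward_apply] at hv
  obtain ⟨w, hw, hw'⟩ := Finset.exists_ne_zero_of_sum_ne_zero hv
  have hwv : w.restrict F = v := by
    by_contra hne
    rw [if_neg hne] at hw'
    exact hw' rfl
  have h1 := hf.2 w (Finsupp.mem_support_iff.mp hw)
  rw [w.ord_restrict f, hwv] at h1
  have he : (w.ramificationIndex F : ℤ) ≠ 0 := by
    exact_mod_cast (w.ramificationIndex_pos (F := F)).ne'
  exact (mul_eq_zero.mp h1).resolve_left he

/-- B1c -/
theorem evDiv_pushforward (f : F) (D : Divisor K F') (hf : UnitOn (algebraMap F F' f) D) :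
    evDiv f (Divisor.pushforward F D) = evDiv (algebraMap F F' f) D := by
  induction D using Finsupp.induction with
  | zero => rw [map_zero, evDiv_zero, evDiv_zero]
  | single_add w n D hw _ ih =>
    obtain ⟨h1, h2⟩ := norm_unitOn_single_add hw hf
    rw [map_add, evDiv_add (norm_unitOn_pushforward h1) (norm_unitOn_pushforward h2),
      evDiv_add h1 h2, ih h2, Divisor.pushforward_single, evDiv_single, evDiv_single,
      place_inertiaDeg_eq_one, Nat.cast_one, mul_one, ev_algebraMap_eq]

private theorem norm_unitOn_pullback_iff [HasPrincipalDivisors K F'] {z : F'} {D : Divisor K F} :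
    UnitOn z (Divisor.pullback F' D) ↔ z ≠ 0 ∧ ∀ w : Place K F', D (w.restrict F) ≠ 0 →
      w.ord z = 0 := by
  unfold UnitOn
  refine and_congr_right fun _ => forall_congr' fun w => ?_
  have he : (w.ramificationIndex F : ℤ) ≠ 0 := by
    exact_mod_cast (w.ramificationIndex_pos (F := F)).ne'
  rw [Divisor.pullback_apply, mul_ne_zero_iff, and_iff_right he]

private theorem norm_unitOn_norm [HasPrincipalDivisors K F'] {z : F'} {D : Divisor K F}
    (hz : UnitOn z (Divisor.pullback F' D)) : UnitOn (Algebra.norm F z) D := by
  rw [norm_unitOn_pullback_iff] at hz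
  refine ⟨Algebra.norm_ne_zero_iff.mpr hz.1, fun v hv => ?_⟩
  rw [ord_norm v z hz.1]
  refine Finset.sum_eq_zero fun w hw => hz.2 w ?_
  rwa [Place.mem_fiber.mp hw]

/-- B1d -/
theorem evDiv_norm [HasPrincipalDivisors K F'] (z : F') (D : Divisor K F)
    (hz : UnitOn z (Divisor.pullback F' D)) :
    evDiv (Algebra.norm F z) D = evDiv z (Divisor.pullback F' D) := by
  induction D using Finsupp.induction with
  | zero => rw [map_zero, evDiv_zero, evDiv_zero]
  | single_add v n D hv hn ih =>
    have h12 : UnitOn z (Divisor.pullback F' (Finsupp.single v n)) ∧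
        UnitOn z (Divisor.pullback F' D) := by
      classical
      rw [norm_unitOn_pullback_iff] at hz ⊢
      rw [norm_unitOn_pullback_iff]
      rw [Finsupp.notMem_support_iff] at hv
      refine ⟨⟨hz.1, fun w hw => hz.2 w ?_⟩, ⟨hz.1, fun w hw => hz.2 w ?_⟩⟩
      · rcases eq_or_ne (w.restrict F) v with huv | huv
        · rw [huv] at hw ⊢
          rwa [Finsupp.add_apply, hv, add_zero]
        · rw [Finsupp.single_apply, if_neg huv.symm] at hw
          exact absurd rfl hw
      · have huv : v ≠ w.restrict F := by
          intro h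
          rw [← h] at hw
          exact hw hv
        rwa [Finsupp.add_apply, Finsupp.single_apply, if_neg huv, zero_add]
    obtain ⟨h1, h2⟩ := h12
    rw [map_add, evDiv_add (norm_unitOn_norm h1) (norm_unitOn_norm h2), evDiv_add h1 h2, ih h2]
    congr 1
    have h3 : ∀ w ∈ v.fiber F', w.ord z = 0 := by
      intro w hw
      apply (norm_unitOn_pullback_iff.mp h1).2
      rw [Place.mem_fiber.mp hw, Finsupp.single_eq_same]
      exact hn
    rw [evDiv_single, ev_norm v z h1.1 h3]
    unfold evDiv
    rw [Finsupp.prod_of_support_subset (s := v.fiber F')]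
    · rw [← Finset.prod_zpow]
      refine Finset.prod_congr rfl fun w hw => ?_
      rw [Divisor.pullback_single_apply_of_restrict_eq (Place.mem_fiber.mp hw), mul_comm, zpow_mul,
        zpow_natCast]
    · intro w hw
      rw [Place.mem_fiber]
      by_contra hne
      rw [Finsupp.mem_support_iff] at hw
      exact hw (Divisor.pullback_single_apply_of_restrict_ne hne n)
    · intro w _
      exact zpow_zero _

/-- B1e -/
theorem isDivOf_pullback [HasPrincipalDivisors K F'] {f : F} {D : Divisor K F} (h : IsDivOf D f) :
    IsDivOf (Divisor.pullback F' D) (algebraMap F F' f) :=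
  ⟨by simpa using h.1, fun w => Divisor.pullback_apply_eq_ord h.2 w⟩

/-- B1f -/
theorem isDivOf_pushforward {z : F'} {D : Divisor K F'} (h : IsDivOf D z) :
    IsDivOf (Divisor.pushforward F D) (Algebra.norm F z) :=
  ⟨Algebra.norm_ne_zero_iff.mpr h.1, fun v => pushforwardNormFormula z h.1 D h.2 v⟩

end Fermat.Agent.S19.Weil
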