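/-
S19 Part B (Weil pairing), B2a: reciprocity on the rational function field.
(architect helper32, proof helper2).  Method: the tame symbol `(h, t)_v` is multiplicative in `h`,
its product over all places is `1` on constants and on the functions `t - a`, which generate `K(t)ˣ`.
-/
import Fermat.Agent.S19.Weil.EvDiv
import Fermat.Agent.S27.FibBasic

set_option autoImplicit false

noncomputable section

namespace Fermat.Agent.S19.Weil

open AlgebraicCurve Fermat.Agent.S24.FF Fermat.Agent.S27 IntermediateField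

variable {K F : Type*} [Field K] [Field F] [Algebra K F] [IsAlgClosed K] [CharZero K] [IsFF1 K F]

namespace P1

omit [IsAlgClosed K] [CharZero K] [IsFF1 K F] in
theorem isVal_zpow {v : Place K F} {f : F} {a : K} (hf : IsVal v f a) (ha : a ≠ 0) (m : ℤ) :
    IsVal v (f ^ m) (a ^ m) := by
  cases m with
  | ofNat n => simpa using hf.pow n
  | negSucc n =>
    rw [zpow_negSucc, zpow_negSucc]
    exact (hf.pow (n + 1)).inv (pow_ne_zero _ ha)

omit [IsAlgClosed K] [CharZero K] [IsFF1 K F] in
theorem ev_one (v : Place K F) : ev v (1 : F) = 1 := by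
  have := ev_algebraMap (F := F) v (1 : K)
  rwa [map_one] at this

omit [CharZero K] in
theorem ev_zpow {v : Place K F} {f : F} (hf0 : f ≠ 0) (hf : v.ord f = 0) (m : ℤ) :
    ev v (f ^ m) = ev v f ^ m :=
  ev_eq_of_isVal (isVal_zpow (isVal_ev hf.ge) (ev_ne_zero_of_ord_eq_zero hf0 hf) m)

/-- The tame symbol `(h, t)_v`. -/
def sym (t : F) (v : Place K F) (h : F) : K :=
  (-1) ^ (v.ord h * v.ord t) * ev v (h ^ (v.ord t) * t ^ (-(v.ord h)))

omit [IsAlgClosed K] [CharZero K] [IsFF1 K F] in
theorem sym_eq_one {t h : F} {v : Place K F} (hh : v.ord h = 0) (ht : v.ord t = 0) :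
    sym t v h = 1 := by
  simp [sym, hh, ht, ev_one]

omit [IsAlgClosed K] [CharZero K] [IsFF1 K F] in
theorem ord_symArg {t h : F} (ht : t ≠ 0) (hh : h ≠ 0) (v : Place K F) :
    v.ord (h ^ (v.ord t) * t ^ (-(v.ord h))) = 0 := by
  rw [v.ord_mul (zpow_ne_zero _ hh) (zpow_ne_zero _ ht), v.ord_zpow, v.ord_zpow]
  ring

omit [CharZero K] in
theorem sym_mul {t h h' : F} (ht : t ≠ 0) (hh : h ≠ 0) (hh' : h' ≠ 0) (v : Place K F) :
    sym t v (h * h') = sym t v h * sym t v h' := by
  unfold sym
  have h1 : (h * h') ^ (v.ord t) * t ^ (-(v.ord (h * h')))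
      = (h ^ (v.ord t) * t ^ (-(v.ord h))) * (h' ^ (v.ord t) * t ^ (-(v.ord h'))) := by
    rw [v.ord_mul hh hh', mul_zpow, neg_add, zpow_add₀ ht]
    ring
  rw [h1, ev_mul (ord_symArg ht hh v).ge (ord_symArg ht hh' v).ge, v.ord_mul hh hh', add_mul,
    zpow_add₀ (by norm_num : (-1 : K) ≠ 0)]
  ring

/-- The product of all tame symbols. -/
def W (t h : F) : K := ∏ᶠ v : Place K F, sym t v h

theorem finite_mulSupport_sym (t h : F) :
    Function.HasFiniteMulSupport fun v : Place K F => sym t v h := by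
  unfold Function.HasFiniteMulSupport
  refine ((finite_ord_ne_zero (K := K) h).union (finite_ord_ne_zero (K := K) t)).subset ?_
  intro v hv
  by_contra hcon
  simp only [Set.mem_union, Set.mem_ofPred_eq, not_or, not_not] at hcon
  exact hv (sym_eq_one hcon.1 hcon.2)

theorem W_mul {t h h' : F} (ht : t ≠ 0) (hh : h ≠ 0) (hh' : h' ≠ 0) :
    W (K := K) t (h * h') = W (K := K) t h * W (K := K) t h' := by
  unfold W
  rw [← finprod_mul_distrib (finite_mulSupport_sym t h) (finite_mulSupport_sym t h')]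
  exact finprod_congr fun v => sym_mul ht hh hh' v

theorem exists_zero (t : F) (ht : Transcendental K t) (htop : K⟮t⟯ = ⊤) (a : K) :
    ∃ P : Place K F, P.ord (t - algebraMap K F a) = 1 ∧
      ∀ v : Place K F, 0 < v.ord (t - algebraMap K F a) → v = P := by
  obtain ⟨P, hP⟩ := exists_place_over t ht a
  have h := fibre_eq_of_card t ht a {P} (by simpa using hP)
    (by rw [htop, IntermediateField.finrank_top]; simp)
  exact ⟨P, h.2 P (by simp), fun v hv => by simpa using h.1 v hv⟩

theorem exists_pole (t : F) (ht : Transcendental K t) (htop : K⟮t⟯ = ⊤) :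
    ∃ P : Place K F, P.ord t = -1 ∧ ∀ v : Place K F, v.ord t < 0 → v = P := by
  obtain ⟨P, hP, hu⟩ := exists_zero t⁻¹ (transcendental_inv ht)
    (by rw [adjoin_simple_inv, htop]) 0
  simp only [map_zero, sub_zero, Place.ord_inv] at hP hu
  exact ⟨P, by omega, fun v hv => hu v (by omega)⟩

/-- The two special places of `t`. -/
structure Frame (t : F) (P0 Pi : Place K F) : Prop where
  ord0 : P0.ord t = 1
  uniq0 : ∀ v : Place K F, 0 < v.ord t → v = P0
  ordi : Pi.ord t = -1
  uniqi : ∀ v : Place K F, v.ord t < 0 → v = Pi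

theorem exists_frame (t : F) (ht : Transcendental K t) (htop : K⟮t⟯ = ⊤) :
    ∃ P0 Pi : Place K F, Frame t P0 Pi := by
  obtain ⟨P0, h0, hu0⟩ := exists_zero t ht htop 0
  obtain ⟨Pi, hi, hui⟩ := exists_pole t ht htop
  simp only [map_zero, sub_zero] at h0 hu0
  exact ⟨P0, Pi, h0, hu0, hi, hui⟩

omit [IsAlgClosed K] [CharZero K] [IsFF1 K F] in
theorem Frame.ne {t : F} {P0 Pi : Place K F} (fr : Frame t P0 Pi) : P0 ≠ Pi := by
  intro h
  have h1 := fr.ord0
  rw [h, fr.ordi] at h1
  omega

omit [IsAlgClosed K] [CharZero K] [IsFF1 K F] in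
theorem Frame.ord_eq_zero {t : F} {P0 Pi : Place K F} (fr : Frame t P0 Pi) {v : Place K F}
    (h0 : v ≠ P0) (hi : v ≠ Pi) : v.ord t = 0 := by
  rcases lt_trichotomy (v.ord t) 0 with h | h | h
  · exact absurd (fr.uniqi v h) hi
  · exact h
  · exact absurd (fr.uniq0 v h) h0

omit [IsAlgClosed K] [CharZero K] [IsFF1 K F] in
theorem W_const {t : F} {P0 Pi : Place K F} (fr : Frame t P0 Pi) {c : K} (hc : c ≠ 0) :
    W (K := K) t (algebraMap K F c) = 1 := by
  classical
  unfold W
  rw [finprod_eq_prod_of_mulSupport_subset (s := {P0, Pi})]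
  · rw [Finset.prod_pair fr.ne]
    have h1 : sym t P0 (algebraMap K F c) = c := by
      simp [sym, ord_algebraMap, fr.ord0, ev_algebraMap]
    have h2 : sym t Pi (algebraMap K F c) = c⁻¹ := by
      have : (algebraMap K F c) ^ (-1 : ℤ) = algebraMap K F c⁻¹ := by
        rw [zpow_neg_one, map_inv₀]
      simp only [sym, ord_algebraMap, fr.ordi, zero_mul, zpow_zero, one_mul, neg_zero, mul_one,
        this, ev_algebraMap]
    rw [h1, h2, mul_inv_cancel₀ hc]
  · intro v hv
    by_contra hcon
    simp only [Finset.coe_insert, Finset.coe_singleton, Set.mem_insert_iff,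
      Set.mem_singleton_iff, not_or] at hcon
    exact hv (sym_eq_one (ord_algebraMap v c) (fr.ord_eq_zero hcon.1 hcon.2))

omit [IsAlgClosed K] [CharZero K] [IsFF1 K F] in
theorem W_self {t : F} (ht0 : t ≠ 0) {P0 Pi : Place K F} (fr : Frame t P0 Pi) :
    W (K := K) t t = 1 := by
  classical
  unfold W
  rw [finprod_eq_prod_of_mulSupport_subset (s := {P0, Pi})]
  · rw [Finset.prod_pair fr.ne]
    have h1 : sym t P0 t = -1 := by
      simp [sym, fr.ord0, ht0, ev_one]
    have h2 : sym t Pi t = -1 := by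
      simp [sym, fr.ordi, ht0, ev_one]
    rw [h1, h2]
    norm_num
  · intro v hv
    by_contra hcon
    simp only [Finset.coe_insert, Finset.coe_singleton, Set.mem_insert_iff,
      Set.mem_singleton_iff, not_or] at hcon
    exact hv (sym_eq_one (fr.ord_eq_zero hcon.1 hcon.2) (fr.ord_eq_zero hcon.1 hcon.2))

theorem W_sub {t : F} (ht : Transcendental K t) (htop : K⟮t⟯ = ⊤) {P0 Pi : Place K F}
    (fr : Frame t P0 Pi) {a : K} (ha : a ≠ 0) : W (K := K) t (t - algebraMap K F a) = 1 := by
  classical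
  obtain ⟨Pa, hPa, hPau⟩ := exists_zero t ht htop a
  have ht0 : t ≠ 0 := fun h => ht (h ▸ isAlgebraic_zero)
  have hsub0 : t - algebraMap K F a ≠ 0 := ne_zero_of_ord_ne_zero Pa (by rw [hPa]; exact one_ne_zero)
  have ha' : algebraMap K F a ≠ 0 := by simpa using ha
  -- at `P0`
  have v0 : IsVal P0 (t - algebraMap K F a) (0 - a) :=
    (isVal_zero_iff.2 (Or.inr (by rw [fr.ord0]; exact one_pos))).sub (isVal_algebraMap P0 a)
  have o0 : P0.ord (t - algebraMap K F a) = 0 := (v0.ord_eq_zero (by simpa using ha)).2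
  -- at `Pa`
  have va : IsVal Pa t a := Or.inr (by rw [hPa]; exact one_pos)
  have oa : Pa.ord t = 0 := (va.ord_eq_zero ha).2
  -- at `Pi`
  have oi : Pi.ord (t - algebraMap K F a) = -1 := by
    rw [sub_eq_add_neg, ord_add_eq_of_lt Pi ht0 (by rw [ord_neg, ord_algebraMap, fr.ordi]; norm_num),
      fr.ordi]
  have vi : IsVal Pi ((t - algebraMap K F a)⁻¹ * t) 1 := by
    right
    have : (t - algebraMap K F a)⁻¹ * t - algebraMap K F 1
        = algebraMap K F a * (t - algebraMap K F a)⁻¹ := by
      rw [map_one]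
      field_simp
      ring
    rw [this, Pi.ord_mul ha' (inv_ne_zero hsub0), ord_algebraMap, Pi.ord_inv, oi]
    norm_num
  have hne0 : Pa ≠ P0 := by
    intro h
    rw [h, fr.ord0] at oa
    omega
  have hnei : Pa ≠ Pi := by
    intro h
    rw [h, fr.ordi] at oa
    omega
  unfold W
  rw [finprod_eq_prod_of_mulSupport_subset (s := {Pa, P0, Pi})]
  · rw [Finset.prod_insert (by simp [hne0, hnei]), Finset.prod_pair fr.ne]
    have h1 : sym t Pa (t - algebraMap K F a) = a⁻¹ := by
      have : ev Pa t⁻¹ = a⁻¹ := ev_eq_of_isVal (va.inv ha)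
      simp [sym, hPa, oa, this]
    have h2 : sym t P0 (t - algebraMap K F a) = -a := by
      have : ev P0 (t - algebraMap K F a) = 0 - a := ev_eq_of_isVal v0
      simp [sym, o0, fr.ord0, this]
    have h3 : sym t Pi (t - algebraMap K F a) = -1 := by
      have : ev Pi ((t - algebraMap K F a)⁻¹ * t) = 1 := ev_eq_of_isVal vi
      simp [sym, oi, fr.ordi, this]
    rw [h1, h2, h3]
    field_simp
  · intro v hv
    by_contra hcon
    simp only [Finset.coe_insert, Finset.coe_singleton, Set.mem_insert_iff,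
      Set.mem_singleton_iff, not_or] at hcon
    have hvt : v.ord t = 0 := fr.ord_eq_zero hcon.2.1 hcon.2.2
    have h1 : 0 ≤ v.ord (t - algebraMap K F a) := by
      have := min_ord_le_ord_add v (f := t) (g := -algebraMap K F a)
        (by rwa [← sub_eq_add_neg])
      rw [ord_neg, ord_algebraMap, hvt, ← sub_eq_add_neg] at this
      simpa using this
    have h2 : ¬ 0 < v.ord (t - algebraMap K F a) := fun h => hcon.1 (hPau v h)
    exact hv (sym_eq_one (by omega) hvt)

open Polynomial in
theorem W_aeval {t : F} (ht : Transcendental K t) (htop : K⟮t⟯ = ⊤) {P0 Pi : Place K F}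
    (fr : Frame t P0 Pi) : ∀ (n : ℕ) (p : K[X]), p.natDegree = n → p ≠ 0 →
      W (K := K) t (aeval t p) = 1 := by
  have ht0 : t ≠ 0 := fun h => ht (h ▸ isAlgebraic_zero)
  intro n
  induction n with
  | zero =>
    intro p hp hp0
    rw [eq_C_of_natDegree_eq_zero hp] at hp0 ⊢
    rw [aeval_C]
    exact W_const fr (by simpa using hp0)
  | succ n ih =>
    intro p hp hp0
    have hdeg : p.degree ≠ 0 := by
      intro h
      have h2 : p.natDegree = 0 := natDegree_eq_zero_iff_degree_le_zero.2 h.le
      omega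
    obtain ⟨a, hroot⟩ := IsAlgClosed.exists_root p hdeg
    obtain ⟨q, rfl⟩ := dvd_iff_isRoot.2 hroot
    have hq0 : q ≠ 0 := right_ne_zero_of_mul hp0
    have hqn : q.natDegree = n := by
      rw [natDegree_mul (X_sub_C_ne_zero a) hq0, natDegree_X_sub_C] at hp
      omega
    have hq' : aeval t q ≠ 0 := fun h => hq0 ((transcendental_iff.1 ht) q h)
    have hs' : t - algebraMap K F a ≠ 0 := by
      intro h
      exact (transcendental_sub_const ht a) (h ▸ isAlgebraic_zero)
    rw [map_mul, map_sub, aeval_X, aeval_C, W_mul ht0 hs' hq', ih q hqn hq0, mul_one]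
    rcases eq_or_ne a 0 with rfl | ha
    · rw [map_zero, sub_zero]
      exact W_self ht0 fr
    · exact W_sub ht htop fr ha

theorem W_eq_one {t : F} (ht : Transcendental K t) (htop : K⟮t⟯ = ⊤) {h : F} (hh : h ≠ 0) :
    W (K := K) t h = 1 := by
  obtain ⟨P0, Pi, fr⟩ := exists_frame t ht htop
  have ht0 : t ≠ 0 := fun h => ht (h ▸ isAlgebraic_zero)
  have hmem : h ∈ K⟮t⟯ := by rw [htop]; exact IntermediateField.mem_top
  obtain ⟨r, s, hrs⟩ := (IntermediateField.mem_adjoin_simple_iff K h).1 hmem
  have hs : Polynomial.aeval t s ≠ 0 := by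
    intro h0
    rw [h0, div_zero] at hrs
    exact hh hrs
  have hr : Polynomial.aeval t r ≠ 0 := by
    intro h0
    rw [h0, zero_div] at hrs
    exact hh hrs
  have hs0 : s ≠ 0 := by rintro rfl; simp at hs
  have hr0 : r ≠ 0 := by rintro rfl; simp at hr
  have hmul : h * Polynomial.aeval t s = Polynomial.aeval t r := by
    rw [hrs, div_mul_cancel₀ _ hs]
  have := W_mul (K := K) ht0 hh hs
  rw [hmul, W_aeval ht htop fr _ r rfl hr0, W_aeval ht htop fr _ s rfl hs0, mul_one] at this
  exact this.symm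

omit [IsAlgClosed K] [CharZero K] [IsFF1 K F] in
theorem evDiv_eq_finprod (f : F) (D : Divisor K F) :
    evDiv f D = ∏ᶠ v : Place K F, ev v f ^ (D v) := by
  rw [finprod_eq_prod_of_mulSupport_subset (s := D.support)]
  · rfl
  · intro v hv
    by_contra hcon
    have : D v = 0 := by simpa using hcon
    exact hv (by simp [this])

omit [IsAlgClosed K] [CharZero K] [IsFF1 K F] in
theorem hasFiniteMulSupport_ev (f : F) (D : Divisor K F) :
    Function.HasFiniteMulSupport fun v : Place K F => ev v f ^ (D v) := by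
  unfold Function.HasFiniteMulSupport
  refine D.support.finite_toSet.subset ?_
  intro v hv
  by_contra hcon
  have : D v = 0 := by simpa using hcon
  exact hv (by simp [this])

end P1

open P1 in
/-- B2a (file `P1.lean`): reciprocity for the pair `(h, t)` on the rational function field `K(t)`.
Places of `K(t)`: by `S27.exists_fibre` with `finrank K⟮t⟯ F = 1` there is exactly one zero of
`t - a` (simple) for every `a`, and one pole of `t`.  `h = c ∏ (t - a_i)^{m_i}`, `a_i ≠ 0`,
`∑ m_i = 0`. -/
theorem reciprocity_rational (t : F) (ht : Transcendental K t) (htop : K⟮t⟯ = ⊤) {h : F}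
    {Dt Dh : Divisor K F} (hDt : IsDivOf Dt t) (hDh : IsDivOf Dh h)
    (hdisj : Disjoint Dt.support Dh.support) : evDiv h Dt = evDiv t Dh := by
  have hW := W_eq_one (K := K) ht htop hDh.1
  have hsym : ∀ v : Place K F, sym t v h = ev v h ^ (Dt v) * (ev v t ^ (Dh v))⁻¹ := by
    intro v
    rw [hDt.2 v, hDh.2 v]
    by_cases hm : v.ord h = 0
    · simp only [sym, hm, zero_mul, zpow_zero, one_mul, neg_zero, mul_one, inv_one]
      exact ev_zpow hDh.1 hm _
    · have hn : v.ord t = 0 := by
        by_contra hn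
        have h1 : v ∈ Dt.support := by rw [Finsupp.mem_support_iff, hDt.2 v]; exact hn
        have h2 : v ∈ Dh.support := by rw [Finsupp.mem_support_iff, hDh.2 v]; exact hm
        exact (Finset.disjoint_left.1 hdisj h1) h2
      simp only [sym, hn, mul_zero, zpow_zero, one_mul]
      rw [ev_zpow hDt.1 hn, zpow_neg]
  have hprod : W (K := K) t h = evDiv h Dt * (evDiv t Dh)⁻¹ := by
    unfold W
    rw [evDiv_eq_finprod, evDiv_eq_finprod, ← finprod_inv_distrib,
      ← finprod_mul_distrib (hasFiniteMulSupport_ev h Dt) ?_]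
    · exact finprod_congr hsym
    · have := hasFiniteMulSupport_ev t Dh
      unfold Function.HasFiniteMulSupport at this ⊢
      refine this.subset ?_
      intro v hv hcon
      exact hv (by simp only [hcon, inv_one])
  rw [hW] at hprod
  have hB : evDiv t Dh ≠ 0 := by
    intro hB
    rw [hB, inv_zero, mul_zero] at hprod
    exact one_ne_zero hprod
  exact (mul_inv_eq_one₀ hB).1 hprod.symm

end Fermat.Agent.S19.Weil
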