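/-
S19 Part B (Weil pairing), B2b: Weil reciprocity.
(architect helper32, proof helper82).  See report #1108 and the `tasks` table (stmt = 'S19').
-/
import Fermat.Agent.S19.Weil.Norm
import Fermat.Agent.S19.Weil.P1

set_option autoImplicit false

noncomputable section

namespace Fermat.Agent.S19.Weil

open AlgebraicCurve Fermat.Agent.S24.FF Fermat.Agent.S27 IntermediateField

variable {K F : Type*} [Field K] [Field F] [Algebra K F] [IsAlgClosed K] [CharZero K] [IsFF1 K F]

omit [IsAlgClosed K] [CharZero K] [IsFF1 K F] in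
/-- the generator generates `K⟮g⟯` over `K`. -/
theorem reciprocity_adjoin_gen (g : F) :
    K⟮AdjoinSimple.gen K g⟯ = (⊤ : IntermediateField K K⟮g⟯) := by
  apply IntermediateField.lift_injective
  rw [IntermediateField.lift_adjoin_simple, IntermediateField.lift_top, AdjoinSimple.coe_gen]

omit [IsAlgClosed K] [CharZero K] [IsFF1 K F] in
/-- uniqueness of the divisor of a function. -/
theorem reciprocity_isDivOf_unique {f : F} {D E : Divisor K F} (hD : IsDivOf D f)
    (hE : IsDivOf E f) : D = E :=
  Finsupp.ext fun v => (hD.2 v).trans (hE.2 v).symm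

omit [IsAlgClosed K] [CharZero K] [IsFF1 K F] in
/-- disjoint supports: `f` is a unit on the divisor of `g`. -/
theorem reciprocity_unitOn {f : F} {Df Dg : Divisor K F} (hf : IsDivOf Df f)
    (hdisj : Disjoint Df.support Dg.support) : UnitOn f Dg := by
  refine ⟨hf.1, fun v hv => ?_⟩
  rw [← hf.2 v]
  by_contra h
  exact (Finset.disjoint_left.1 hdisj (Finsupp.mem_support_iff.2 h)) (Finsupp.mem_support_iff.2 hv)

/-- B2b (file `Reciprocity.lean`): WEIL RECIPROCITY.  `g` constant: trivial.  Otherwise apply B1 to
`K⟮g⟯ ⊆ F`: `f(div g) = f(π^* div t) = (N f)(div t)`, `g(div f) = t(π_* div f) = t(div N f)`. -/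
theorem weil_reciprocity [NonConst K F] {f g : F} {Df Dg : Divisor K F} (hf : IsDivOf Df f)
    (hg : IsDivOf Dg g) (hdisj : Disjoint Df.support Dg.support) : evDiv f Dg = evDiv g Df := by
  classical
  rcases exists_const_or_transcendental (K := K) g with ⟨c, rfl⟩ | hgt
  · have hc : c ≠ 0 := by
      rintro rfl
      exact hg.1 (map_zero _)
    have hDg : Dg = 0 := Finsupp.ext fun v => by
      rw [hg.2 v, ord_algebraMap, Finsupp.zero_apply]
    rw [hDg, evDiv_zero, evDiv_const hc, hf.degree, zpow_zero]
  · have hfin : Module.Finite K⟮g⟯ F := IsFF1.finite g hgt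
    set t : K⟮g⟯ := AdjoinSimple.gen K g with ht
    have htg : algebraMap K⟮g⟯ F t = g := AdjoinSimple.algebraMap_gen K g
    have htop : K⟮t⟯ = (⊤ : IntermediateField K K⟮g⟯) := reciprocity_adjoin_gen g
    have hfd : FiniteDimensional K⟮t⟯ K⟮g⟯ := by
      rw [htop]
      exact Module.finite_of_finrank_pos (by rw [IntermediateField.finrank_top]; exact one_pos)
    have hFF : IsFF1 K K⟮g⟯ := IsFF1.of_exists t
    have htt : Transcendental K t := by
      intro h
      apply hgt
      rw [← htg]
      exact h.algebraMap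
    have hPD : HasPrincipalDivisors K F := Fermat.Agent.S37.HeckeInputs.hasPrincipalDivisors
    have ht0 : t ≠ 0 := by
      rintro h0
      apply hg.1
      rw [← htg, h0, map_zero]
    obtain ⟨D0, hD0⟩ := exists_isDivOf (K := K) t ht0
    have hpb : IsDivOf (Divisor.pullback F D0) g := by
      have := isDivOf_pullback (F' := F) hD0
      rwa [htg] at this
    have hDg : Dg = Divisor.pullback F D0 := reciprocity_isDivOf_unique hg hpb
    have hpf : IsDivOf (Divisor.pushforward K⟮g⟯ Df) (Algebra.norm K⟮g⟯ f) := isDivOf_pushforward hf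
    have hU1 : UnitOn f (Divisor.pullback F D0) := hDg ▸ reciprocity_unitOn hf hdisj
    have hU2 : UnitOn (algebraMap K⟮g⟯ F t) Df := by
      rw [htg]
      exact reciprocity_unitOn hg hdisj.symm
    have hdisj' : Disjoint D0.support (Divisor.pushforward K⟮g⟯ Df).support := by
      rw [Finset.disjoint_left]
      intro v hv0 hv1
      rw [Finsupp.mem_support_iff] at hv0 hv1
      rw [Divisor.pushforward_apply] at hv1
      obtain ⟨w, hw, hw1⟩ := Finset.exists_ne_zero_of_sum_ne_zero hv1
      have hwv : w.restrict K⟮g⟯ = v := by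
        by_contra h
        exact hw1 (if_neg h)
      refine Finset.disjoint_left.1 hdisj hw ?_
      rw [Finsupp.mem_support_iff, hDg, Divisor.pullback_apply, hwv]
      have hepos : 0 < w.ramificationIndex K⟮g⟯ := w.ramificationIndex_pos
      exact mul_ne_zero (by omega) hv0
    rw [hDg, ← evDiv_norm f D0 hU1, reciprocity_rational t htt htop hD0 hpf hdisj',
      evDiv_pushforward t Df hU2, htg]

end Fermat.Agent.S19.Weil
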