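/-
S19 Part B (Weil pairing), B3a-c: representatives of torsion classes.
Statements: architect helper32 (frozen interfaces); proofs: helper162 (task 1397).
See report #1108 and the `tasks` table (stmt = 'S19').
-/
import Fermat.Agent.S19.Weil.EvDiv
import Fermat.Agent.S27.Approx
import Fermat.Agent.S27.RiemannI

set_option autoImplicit false
set_option linter.unusedSectionVars false
set_option linter.unusedVariables false

noncomputable section

namespace Fermat.Agent.S19.Weil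

open AlgebraicCurve Fermat.Agent.S24.FF Fermat.Agent.S27 IntermediateField

section Aux

variable {K F : Type*} [Field K] [Field F] [Algebra K F]

theorem rep_isDivOf_mul {D E : Divisor K F} {f g : F} (h : IsDivOf D f) (h' : IsDivOf E g) :
    IsDivOf (D + E) (f * g) :=
  ⟨mul_ne_zero h.1 h'.1, fun v => by rw [Finsupp.add_apply, h.2, h'.2, v.ord_mul h.1 h'.1]⟩

theorem rep_isDivOf_pow {D : Divisor K F} {f : F} (h : IsDivOf D f) (n : ℕ) :
    IsDivOf ((n : ℤ) • D) (f ^ n) :=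
  ⟨pow_ne_zero _ h.1, fun v => by rw [Finsupp.smul_apply, h.2, ord_pow, smul_eq_mul]⟩

theorem rep_isDivOf_const {c : K} (hc : c ≠ 0) : IsDivOf (0 : Divisor K F) (algebraMap K F c) :=
  ⟨(map_ne_zero _).mpr hc, fun v => by rw [Finsupp.zero_apply, ord_algebraMap]⟩

theorem rep_cls_natCast_zsmul {D : Divisor K F} (hD : Divisor.degree D = 0) (n : ℕ) :
    cls ((n : ℤ) • D) = (n : ℤ) • cls D := by
  induction n with
  | zero => simp [cls_zero]
  | succ k ih =>
    rw [Nat.cast_succ, add_zsmul, add_zsmul, one_zsmul, one_zsmul,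
      cls_add (by rw [map_zsmul, hD, smul_zero]) hD, ih]

theorem rep_cls_eq_zero {G : Divisor K F} {g : F} [IsAlgClosed K] [CharZero K] [IsFF1 K F]
    (h : IsDivOf G g) : cls G = 0 :=
  (cls_eq_zero_iff h.degree).mpr ⟨g, h⟩

end Aux

variable {K F : Type*} [Field K] [Field F] [Algebra K F] [IsAlgClosed K] [CharZero K] [IsFF1 K F]
  [NonConst K F]

/-- B3a (moving lemma, `Rep.lean`; use `S27.exists_ord_eq`). -/
theorem exists_torsRep {n : ℕ} {x : Pic0 K F} (hx : (n : ℤ) • x = 0) (s : Finset (Place K F)) :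
    ∃ a : TorsRep n x, ∀ v ∈ s, a.D v = 0 := by
  obtain ⟨D₀, hdeg₀, hcls₀⟩ := cls_surjective x
  obtain ⟨g, hg0, hg⟩ := exists_ord_eq s (fun v => - D₀ v)
  obtain ⟨G, hG⟩ := exists_isDivOf (K := K) g hg0
  have hdeg : Divisor.degree (D₀ + G) = 0 := by rw [map_add, hdeg₀, hG.degree, add_zero]
  have hcls : cls (D₀ + G) = x := by
    rw [cls_add hdeg₀ hG.degree, hcls₀, rep_cls_eq_zero hG, add_zero]
  have hn : cls ((n : ℤ) • (D₀ + G)) = 0 := by rw [rep_cls_natCast_zsmul hdeg, hcls, hx]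
  obtain ⟨f, hf⟩ := (cls_eq_zero_iff (by rw [map_zsmul, hdeg, smul_zero])).mp hn
  refine ⟨⟨D₀ + G, f, hdeg, hcls, hf⟩, fun v hv => ?_⟩
  show (D₀ + G) v = 0
  rw [Finsupp.add_apply, hG.2, hg v hv, add_neg_cancel]

/-- B3a' : change of representative. -/
theorem TorsRep.exists_eq {n : ℕ} (hn : 0 < n) {x : Pic0 K F} (a a' : TorsRep n x) :
    ∃ (g : F) (c : K) (G : Divisor K F), c ≠ 0 ∧ IsDivOf G g ∧ a'.D = a.D + G ∧
      a'.f = algebraMap K F c * a.f * g ^ n := by
  have h1 : LinEq a'.D a.D := (cls_eq_cls_iff a'.deg a.deg).mp (by rw [a'.cls_eq, a.cls_eq])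
  obtain ⟨g, hg⟩ := h1
  have hg' : IsDivOf (a'.D - a.D) g := hg
  have hden : a.f * g ^ n ≠ 0 := mul_ne_zero a.div.1 (pow_ne_zero _ hg'.1)
  have hq0 : a'.f * (a.f * g ^ n)⁻¹ ≠ 0 := mul_ne_zero a'.div.1 (inv_ne_zero hden)
  have hord : ∀ v : Place K F, v.ord (a'.f * (a.f * g ^ n)⁻¹) = 0 := by
    intro v
    rw [v.ord_mul a'.div.1 (inv_ne_zero hden), v.ord_inv,
      v.ord_mul a.div.1 (pow_ne_zero _ hg'.1), ord_pow, ← a'.div.2, ← a.div.2, ← hg'.2,
      Finsupp.smul_apply, Finsupp.smul_apply, Finsupp.sub_apply, smul_eq_mul, smul_eq_mul]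
    ring
  obtain ⟨c, hc⟩ := eq_algebraMap_of_forall_ord_nonneg (K := K) _ (fun v => (hord v).ge)
  refine ⟨g, c, a'.D - a.D, ?_, hg', by abel, ?_⟩
  · rintro rfl
    rw [map_zero] at hc
    exact hq0 hc
  · rw [mul_assoc, ← hc, inv_mul_cancel_right₀ hden]

/-- B3b (`Rep.lean`) -/
def TorsRep.add {n : ℕ} {x x' : Pic0 K F} (a : TorsRep n x) (a' : TorsRep n x') :
    TorsRep n (x + x') where
  D := a.D + a'.D
  f := a.f * a'.f
  deg := by rw [map_add, a.deg, a'.deg, add_zero]
  cls_eq := by rw [cls_add a.deg a'.deg, a.cls_eq, a'.cls_eq]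
  div := by
    rw [smul_add]
    exact rep_isDivOf_mul a.div a'.div

/-- B3b' (`Rep.lean`): multiply by an `n`-th power. -/
def TorsRep.move {n : ℕ} {x : Pic0 K F} (a : TorsRep n x) (s : F) (G : Divisor K F)
    (hs : IsDivOf G s) : TorsRep n x where
  D := a.D + G
  f := s ^ n * a.f
  deg := by rw [map_add, a.deg, hs.degree, add_zero]
  cls_eq := by rw [cls_add a.deg hs.degree, a.cls_eq, rep_cls_eq_zero hs, add_zero]
  div := by
    rw [smul_add, add_comm]
    exact rep_isDivOf_mul (rep_isDivOf_pow hs n) a.div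

/-- B3b'' (`Rep.lean`): rescale the function. -/
def TorsRep.scale {n : ℕ} {x : Pic0 K F} (a : TorsRep n x) (c : K) (hc : c ≠ 0) : TorsRep n x where
  D := a.D
  f := algebraMap K F c * a.f
  deg := a.deg
  cls_eq := a.cls_eq
  div := by
    have h := rep_isDivOf_mul (rep_isDivOf_const (F := F) hc) a.div
    rwa [zero_add] at h

/-- B3c (`Rep.lean`) -/
def TorsRep.smul {n : ℕ} {x : Pic0 K F} (g : SemilinearAut K F) (a : TorsRep n x) :
    TorsRep n (g • x) where
  D := g • a.D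
  f := g • a.f
  deg := by rw [SemilinearAut.degree_smul, a.deg]
  cls_eq := by rw [cls_smul g a.deg, a.cls_eq]
  div := by
    rw [smul_comm]
    exact IsDivOf.smul g a.div

theorem TorsRep.unitOn {n : ℕ} {x y : Pic0 K F} (a : TorsRep n x) (b : TorsRep n y)
    (h : Disjoint a.D.support b.D.support) : UnitOn a.f b.D := by
  refine ⟨a.div.1, fun v hv => ?_⟩
  have hb : v ∈ b.D.support := Finsupp.mem_support_iff.mpr hv
  have ha : v ∉ a.D.support := fun ha => (Finset.disjoint_left.mp h ha) hb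
  rw [← a.div.2, Finsupp.smul_apply, Finsupp.notMem_support_iff.mp ha, smul_zero]

end Fermat.Agent.S19.Weil
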