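/-
S19 Part B (Weil pairing), B3d-g: the pairing.
Skeleton by helper32 (architect), proofs by helper106 (task 1398).
See report #1108 and the `tasks` table (stmt = 'S19').
-/
import Fermat.Agent.S19.Weil.Rep
import Fermat.Agent.S19.Weil.Reciprocity

set_option autoImplicit false

noncomputable section

namespace Fermat.Agent.S19.Weil

open AlgebraicCurve Fermat.Agent.S24.FF Fermat.Agent.S27 IntermediateField

variable {K F : Type*} [Field K] [Field F] [Algebra K F] [IsAlgClosed K] [CharZero K] [IsFF1 K F]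
  [NonConst K F]

omit [IsAlgClosed K] [CharZero K] [IsFF1 K F] [NonConst K F] in
theorem Pairing.disjoint_iff {D E : Divisor K F} :
    Disjoint D.support E.support ↔ ∀ v, D v ≠ 0 → E v = 0 := by
  rw [Finset.disjoint_left]
  refine forall_congr' fun v => ?_
  rw [Finsupp.mem_support_iff, Finsupp.notMem_support_iff]

omit [IsAlgClosed K] [CharZero K] [IsFF1 K F] [NonConst K F] in
theorem Pairing.cls_nsmul {D : Divisor K F} (hD : Divisor.degree D = 0) (m : ℕ) :
    cls (m • D) = m • cls D := by
  induction m with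
  | zero => rw [zero_nsmul, zero_nsmul, cls_zero]
  | succ m ih =>
    rw [succ_nsmul, succ_nsmul, cls_add (by rw [map_nsmul, hD, smul_zero]) hD, ih]

omit [IsAlgClosed K] [CharZero K] [IsFF1 K F] [NonConst K F] in
/-- a class with a `TorsRep` is killed by `n` -/
theorem TorsRep.zsmul_eq_zero {n : ℕ} {x : Pic0 K F} (a : TorsRep n x) : (n : ℤ) • x = 0 := by
  rw [natCast_zsmul, ← a.cls_eq, ← Pairing.cls_nsmul a.deg,
    cls_eq_zero_iff (by rw [map_nsmul, a.deg, smul_zero])]
  have h := a.div
  rw [natCast_zsmul] at h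
  exact ⟨a.f, h⟩

/-- B3d (`Pairing.lean`): independence of the first representative (Weil reciprocity). -/
theorem weilRep_congr_left {n : ℕ} (hn : 0 < n) {x y : Pic0 K F} (a a' : TorsRep n x)
    (b : TorsRep n y) (h : Disjoint a.D.support b.D.support)
    (h' : Disjoint a'.D.support b.D.support) : weilRep a b = weilRep a' b := by
  obtain ⟨g, c, G, hc, hG, hD, hf⟩ := a.exists_eq hn a'
  have d1 := Pairing.disjoint_iff.1 h.symm
  have d1' := Pairing.disjoint_iff.1 h'.symm
  have d2 := Pairing.disjoint_iff.1 h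
  have d2' := Pairing.disjoint_iff.1 h'
  have hGv : ∀ v, G v = a'.D v - a.D v := by
    intro v
    rw [hD, Finsupp.add_apply]
    ring
  -- unit conditions
  have ug : UnitOn g b.D := ⟨hG.1, fun v hv => by
    rw [← hG.2 v, hGv, d1 v hv, d1' v hv, sub_zero]⟩
  have ua : UnitOn a.f b.D := a.unitOn b h
  have uba : UnitOn b.f a.D := b.unitOn a h.symm
  have hbG : ∀ v, G v ≠ 0 → b.D v = 0 := by
    intro v hv
    by_contra hb
    exact hv (by rw [hGv, d1 v hb, d1' v hb, sub_zero])
  have ubG : UnitOn b.f G := ⟨b.div.1, fun v hv => by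
    rw [← b.div.2 v, Finsupp.smul_apply, hbG v hv, smul_zero]⟩
  have uc : UnitOn (algebraMap K F c) b.D := unitOn_const hc b.D
  -- reciprocity
  have hdisj : Disjoint G.support ((n : ℤ) • b.D).support := by
    rw [Pairing.disjoint_iff]
    intro v hv
    rw [Finsupp.smul_apply, hbG v hv, smul_zero]
  have hrec : evDiv g ((n : ℤ) • b.D) = evDiv b.f G := weil_reciprocity hG b.div hdisj
  rw [evDiv_zsmul ug, zpow_natCast] at hrec
  have hne : evDiv b.f G ≠ 0 := ubG.evDiv_ne_zero
  have e1 : evDiv a'.f b.D = evDiv a.f b.D * evDiv b.f G := by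
    rw [hf, evDiv_mul (uc.mul ua) (ug.pow n), evDiv_mul uc ua, evDiv_pow ug, evDiv_const hc,
      b.deg, zpow_zero, one_mul, hrec]
  have e2 : evDiv b.f a'.D = evDiv b.f a.D * evDiv b.f G := by
    rw [hD, evDiv_add uba ubG]
  rw [weilRep, weilRep, e1, e2, mul_div_mul_right _ _ hne]

omit [IsAlgClosed K] [CharZero K] [IsFF1 K F] [NonConst K F] in
theorem weilRep_swap {n : ℕ} {x y : Pic0 K F} (a : TorsRep n x) (b : TorsRep n y) :
    weilRep b a = (weilRep a b)⁻¹ := by
  rw [weilRep, weilRep, inv_div]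

/-- independence of the second representative -/
theorem weilRep_congr_right {n : ℕ} (hn : 0 < n) {x y : Pic0 K F} (a : TorsRep n x)
    (b b' : TorsRep n y) (h : Disjoint a.D.support b.D.support)
    (h' : Disjoint a.D.support b'.D.support) : weilRep a b = weilRep a b' := by
  rw [weilRep_swap b a, weilRep_swap b' a, weilRep_congr_left hn b b' a h.symm h'.symm]

/-- any two pairs of disjoint representatives give the same value -/
theorem weilRep_congr {n : ℕ} (hn : 0 < n) {x y : Pic0 K F} (a a' : TorsRep n x)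
    (b b' : TorsRep n y) (h : Disjoint a.D.support b.D.support)
    (h' : Disjoint a'.D.support b'.D.support) : weilRep a b = weilRep a' b' := by
  classical
  obtain ⟨a₁, ha₁⟩ := exists_torsRep a.zsmul_eq_zero (b.D.support ∪ b'.D.support)
  have d : Disjoint a₁.D.support b.D.support := by
    rw [disjoint_comm, Pairing.disjoint_iff]
    intro v hv
    exact ha₁ v (Finset.mem_union_left _ (Finsupp.mem_support_iff.2 hv))
  have d' : Disjoint a₁.D.support b'.D.support := by
    rw [disjoint_comm, Pairing.disjoint_iff]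
    intro v hv
    exact ha₁ v (Finset.mem_union_right _ (Finsupp.mem_support_iff.2 hv))
  rw [weilRep_congr_left hn a a₁ b h d, weilRep_congr_right hn a₁ b b' d d',
    weilRep_congr_left hn a₁ a' b' d' h']

/-- B3e : the pairing is computed by any pair of disjoint representatives. -/
theorem weil_eq {n : ℕ} (hn : 0 < n) {x y : Pic0 K F} (a : TorsRep n x) (b : TorsRep n y)
    (h : Disjoint a.D.support b.D.support) : weil n x y = weilRep a b := by
  have hex : ∃ (a : TorsRep n x) (b : TorsRep n y), Disjoint a.D.support b.D.support :=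
    ⟨a, b, h⟩
  rw [weil, dif_pos hex]
  exact weilRep_congr hn _ _ _ _ hex.choose_spec.choose_spec h

theorem weilRep_ne_zero {n : ℕ} {x y : Pic0 K F} (a : TorsRep n x) (b : TorsRep n y)
    (h : Disjoint a.D.support b.D.support) : weilRep a b ≠ 0 :=
  div_ne_zero (a.unitOn b h).evDiv_ne_zero (b.unitOn a h.symm).evDiv_ne_zero

theorem weil_ne_zero {n : ℕ} (hn : 0 < n) (x y : Pic0 K F) : weil n x y ≠ 0 := by
  by_cases hex : ∃ (a : TorsRep n x) (b : TorsRep n y), Disjoint a.D.support b.D.support
  · obtain ⟨a, b, h⟩ := hex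
    rw [weil_eq hn a b h]
    exact weilRep_ne_zero a b h
  · rw [weil, dif_neg hex]
    exact one_ne_zero

/-- disjoint representatives exist -/
theorem exists_disjoint_torsRep {n : ℕ} {x y : Pic0 K F} (hx : (n : ℤ) • x = 0)
    (b : TorsRep n y) : ∃ a : TorsRep n x, Disjoint a.D.support b.D.support := by
  obtain ⟨a, ha⟩ := exists_torsRep hx b.D.support
  refine ⟨a, ?_⟩
  rw [disjoint_comm, Pairing.disjoint_iff]
  intro v hv
  exact ha v (Finsupp.mem_support_iff.2 hv)

/-- B3f -/
theorem weil_add_left {n : ℕ} (hn : 0 < n) {x x' y : Pic0 K F} (hx : (n : ℤ) • x = 0)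
    (hx' : (n : ℤ) • x' = 0) (hy : (n : ℤ) • y = 0) :
    weil n (x + x') y = weil n x y * weil n x' y := by
  obtain ⟨b, -⟩ := exists_torsRep hy (∅ : Finset (Place K F))
  obtain ⟨a, ha⟩ := exists_disjoint_torsRep hx b
  obtain ⟨a', ha'⟩ := exists_disjoint_torsRep hx' b
  have hD : (a.add a').D = a.D + a'.D := rfl
  have hf : (a.add a').f = a.f * a'.f := rfl
  have hadd : Disjoint (a.add a').D.support b.D.support := by
    rw [disjoint_comm, Pairing.disjoint_iff]
    intro v hv
    rw [hD, Finsupp.add_apply, Pairing.disjoint_iff.1 ha.symm v hv,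
      Pairing.disjoint_iff.1 ha'.symm v hv, add_zero]
  rw [weil_eq hn (a.add a') b hadd, weil_eq hn a b ha, weil_eq hn a' b ha', weilRep, weilRep,
    weilRep, hD, hf, evDiv_mul (a.unitOn b ha) (a'.unitOn b ha'),
    evDiv_add (b.unitOn a ha.symm) (b.unitOn a' ha'.symm), mul_div_mul_comm]

/-- B3g -/
theorem weil_smul {n : ℕ} (hn : 0 < n) (g : SemilinearAut K F) {x y : Pic0 K F}
    (hx : (n : ℤ) • x = 0) (hy : (n : ℤ) • y = 0) :
    weil n (g • x) (g • y) = SemilinearAut.baseAut g (weil n x y) := by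
  obtain ⟨b, -⟩ := exists_torsRep hy (∅ : Finset (Place K F))
  obtain ⟨a, ha⟩ := exists_disjoint_torsRep hx b
  have haD : (a.smul g).D = g • a.D := rfl
  have haf : (a.smul g).f = g • a.f := rfl
  have hbD : (b.smul g).D = g • b.D := rfl
  have hbf : (b.smul g).f = g • b.f := rfl
  have hdisj : Disjoint (a.smul g).D.support (b.smul g).D.support := by
    rw [Pairing.disjoint_iff]
    intro v hv
    rw [haD, SemilinearAut.divisor_smul_apply] at hv
    rw [hbD, SemilinearAut.divisor_smul_apply]
    exact Pairing.disjoint_iff.1 ha _ hv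
  rw [weil_eq hn (a.smul g) (b.smul g) hdisj, weil_eq hn a b ha, weilRep, weilRep, haD, haf, hbD,
    hbf, evDiv_smul, evDiv_smul, map_div₀]

end Fermat.Agent.S19.Weil
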