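/-
S19 Part B (Weil pairing), B4: the Kummer extension.
(architect helper32; proofs helper267).  See report #1108 and the `tasks` table (stmt = 'S19').
-/
import Fermat.Agent.S19.Weil.Defs

set_option autoImplicit false

noncomputable section

namespace Fermat.Agent.S19.Weil

open AlgebraicCurve Fermat.Agent.S24.FF Fermat.Agent.S27 IntermediateField

universe u v

variable {K : Type u} {F : Type v} [Field K] [Field F] [Algebra K F] [IsAlgClosed K] [CharZero K]
  [IsFF1 K F] [NonConst K F]

private theorem finrank_adjoin_mul_aux {K F E : Type*} [Field K] [Field F] [Field E] [Algebra K F]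
    [Algebra K E] [Algebra F E] [IsScalarTower K F E] (x : F) :
    Module.finrank K⟮x⟯ F * Module.finrank F E = Module.finrank K⟮algebraMap F E x⟯ E := by
  have hmap : (K⟮x⟯).map (IsScalarTower.toAlgHom K F E) = K⟮algebraMap F E x⟯ := by
    rw [IntermediateField.adjoin_map, Set.image_singleton]
    rfl
  have h1 : Module.finrank K⟮x⟯ E =
      Module.finrank ((K⟮x⟯).map (IsScalarTower.toAlgHom K F E)) E :=
    Algebra.finrank_eq_of_equiv_equiv
      (IntermediateField.equivMap K⟮x⟯ (IsScalarTower.toAlgHom K F E)).toRingEquiv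
      (RingEquiv.refl E) (RingHom.ext fun y => rfl)
  rw [Module.finrank_mul_finrank, h1, hmap]

/-- B4a : a finite extension of a function field is a function field. -/
theorem isFF1_of_finite (E : Type*) [Field E] [Algebra K E] [Algebra F E] [IsScalarTower K F E]
    [Module.Finite F E] : IsFF1 K E ∧ NonConst K E := by
  obtain ⟨x, hx⟩ := NonConst.out (K := K) (F := F)
  have hy : Transcendental K (algebraMap F E x) :=
    (transcendental_algebraMap_iff (algebraMap F E).injective).2 hx
  have : FiniteDimensional K⟮x⟯ F := IsFF1.finite x hx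
  have h := finrank_adjoin_mul_aux (K := K) (F := F) (E := E) x
  have : FiniteDimensional K⟮algebraMap F E x⟯ E :=
    Module.finite_of_finrank_pos (by
      rw [← h]
      exact Nat.mul_pos Module.finrank_pos Module.finrank_pos)
  exact ⟨IsFF1.of_exists (algebraMap F E x), ⟨⟨_, hy⟩⟩⟩

/-- B4b : `E` := splitting field of `X ^ n - f`; it is Galois over `F`, `h ∉ F`, so some `τ` moves
`h`; `τ h / h` is an `n`-th root of unity, hence a constant. -/
theorem exists_kummer (n : ℕ) (hn : 0 < n) (f : F) (hf : f ≠ 0) (hnot : ¬ ∃ h : F, h ^ n = f) :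
    ∃ (E : Type v) (_ : Field E) (_ : Algebra K E) (_ : Algebra F E) (_ : IsScalarTower K F E)
      (_ : Module.Finite F E) (h : E) (τ : E ≃ₐ[F] E) (ζ : K),
      h ^ n = algebraMap F E f ∧ τ h = algebraMap K E ζ * h ∧ ζ ≠ 1 := by
  classical
  have : CharZero F := charZero_of_injective_algebraMap (algebraMap K F).injective
  set p : Polynomial F := Polynomial.X ^ n - Polynomial.C f with hp
  have hpdeg : p.degree ≠ 0 := by
    rw [hp, Polynomial.degree_X_pow_sub_C hn]
    exact_mod_cast hn.ne'
  have hpdeg' : (p.map (algebraMap F p.SplittingField)).degree ≠ 0 := by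
    rwa [Polynomial.degree_map]
  obtain ⟨h, hh⟩ := (Polynomial.SplittingField.splits p).exists_eval_eq_zero hpdeg'
  have hhn : h ^ n = algebraMap F p.SplittingField f := by
    have hmap : ∀ (L : Type v) [Field L] (φ : F →+* L), p.map φ =
        Polynomial.X ^ n - Polynomial.C (φ f) := by
      intro L _ φ
      rw [hp]
      simp
    rw [hmap] at hh
    simpa [sub_eq_zero] using hh
  have hh0 : h ≠ 0 := by
    rintro rfl
    rw [zero_pow hn.ne'] at hhn
    exact hf ((map_eq_zero (algebraMap F p.SplittingField)).1 hhn.symm)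
  have hgal : IsGalois F p.SplittingField :=
    IsGalois.of_separable_splitting_field (p := p)
      (Polynomial.separable_X_pow_sub_C f (by exact_mod_cast hn.ne') hf)
  have hnmem : h ∉ (⊥ : IntermediateField F p.SplittingField) := by
    intro hmem
    obtain ⟨g, hg⟩ := IntermediateField.mem_bot.1 hmem
    apply hnot
    refine ⟨g, (algebraMap F p.SplittingField).injective ?_⟩
    rw [map_pow, hg, hhn]
  have hmove : ∃ τ : p.SplittingField ≃ₐ[F] p.SplittingField, τ h ≠ h := by
    by_contra hcon
    push Not at hcon
    exact hnmem ((IsGalois.mem_bot_iff_fixed h).2 hcon)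
  obtain ⟨τ, hτ⟩ := hmove
  have hz : (τ h / h) ^ n = 1 := by
    rw [div_pow, ← map_pow, hhn, τ.commutes, div_self]
    rw [← hhn]
    exact pow_ne_zero n hh0
  have hint : IsIntegral K (τ h / h) :=
    ⟨Polynomial.X ^ n - 1, Polynomial.monic_X_pow_sub_C 1 hn.ne', by simp [hz]⟩
  have hdeg : (minpoly K (τ h / h)).degree = 1 :=
    IsAlgClosed.degree_eq_one_of_irreducible K (minpoly.irreducible hint)
  obtain ⟨ζ, hζ⟩ := minpoly.mem_range_of_degree_eq_one K (τ h / h) hdeg
  refine ⟨p.SplittingField, inferInstance, inferInstance, inferInstance, inferInstance,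
    inferInstance, h, τ, ζ, hhn, ?_, ?_⟩
  · rw [hζ, div_mul_cancel₀ _ hh0]
  · rintro rfl
    rw [map_one] at hζ
    exact hτ ((div_eq_one_iff_eq hh0).1 hζ.symm)

/-- B4c : an `F`-automorphism of `E`, as a semilinear automorphism, permutes the fibres. -/
theorem restrict_smul_ofAlgAut {E : Type*} [Field E] [Algebra K E] [Algebra F E]
    [IsScalarTower K F E] [Algebra.IsIntegral F E] (τ : E ≃ₐ[F] E) (Q : Place K E) :
    (SemilinearAut.ofAlgAut (τ.restrictScalars K) • Q).restrict F = Q.restrict F := by
  apply Place.ext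
  ext x
  rw [Place.mem_restrict_iff, Place.mem_restrict_iff, SemilinearAut.smul_toValuationSubring,
    ValuationSubring.mem_pointwise_smul_iff_inv_smul_mem, SemilinearAut.inv_smul_def]
  have : (SemilinearAut.toRingAut (SemilinearAut.ofAlgAut (τ.restrictScalars K))).symm
      (algebraMap F E x) = algebraMap F E x := by
    rw [SemilinearAut.toRingAut_ofAlgAut]
    exact τ.symm.commutes x
  rw [this]

end Fermat.Agent.S19.Weil
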