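/-
S19 Part B (Weil pairing), B6: nondegeneracy.
(architect helper32, proof helper291)  See report #1108.
-/
import Fermat.Agent.S19.Weil.Pairing
import Fermat.Agent.S19.Weil.Kummer
import Fermat.Agent.S27.FibBasic

set_option autoImplicit false

noncomputable section

namespace Fermat.Agent.S19.Weil

open AlgebraicCurve Fermat.Agent.S24.FF Fermat.Agent.S27 IntermediateField

universe u v

section aux

variable {K F : Type*} [Field K] [Field F] [Algebra K F]

theorem nondeg_cls_zsmul {D : Divisor K F} (hD : Divisor.degree D = 0) (m : ℤ) :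
    cls (m • D) = m • cls D := by
  rw [cls_eq_mk hD, cls_eq_mk (by rw [map_zsmul, hD, smul_zero])]
  rfl

variable [IsAlgClosed K] [CharZero K] [IsFF1 K F]

/-- moving lemma for arbitrary classes. -/
theorem nondeg_exists_rep (x : Pic0 K F) (s : Finset (Place K F)) :
    ∃ A : Divisor K F, Divisor.degree A = 0 ∧ cls A = x ∧ ∀ v ∈ s, A v = 0 := by
  obtain ⟨D, hD, rfl⟩ := cls_surjective x
  obtain ⟨g, hg0, hg⟩ := exists_ord_eq s (fun v => -D v)
  obtain ⟨G, hG⟩ := exists_isDivOf (K := K) g hg0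
  refine ⟨D + G, by rw [map_add, hD, hG.degree, add_zero], ?_, fun v hv => ?_⟩
  · rw [cls_add hD hG.degree, (cls_eq_zero_iff hG.degree).2 ⟨g, hG⟩, add_zero]
  · rw [Finsupp.add_apply, hG.2 v, hg v hv, add_neg_cancel]

omit [IsAlgClosed K] [CharZero K] [IsFF1 K F] in
/-- if `n • D` is the divisor of `h ^ n` then `D` is the divisor of `h`. -/
theorem nondeg_isDivOf_of_pow {n : ℕ} (hn : 0 < n) {D : Divisor K F} {h : F}
    (hD : IsDivOf ((n : ℤ) • D) (h ^ n)) : IsDivOf D h := by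
  refine ⟨fun h0 => hD.1 (by rw [h0, zero_pow hn.ne']), fun v => ?_⟩
  have h1 := hD.2 v
  rw [Finsupp.smul_apply, ord_pow, smul_eq_mul] at h1
  exact mul_left_cancel₀ (by exact_mod_cast hn.ne') h1

end aux

section core

variable {K : Type u} {F E : Type v} [Field K] [Field F] [Field E] [Algebra K F] [Algebra K E]
  [Algebra F E] [IsScalarTower K F E] [IsAlgClosed K] [CharZero K] [IsFF1 K F] [NonConst K F]
  [IsFF1 K E] [NonConst K E] [Module.Finite F E]

theorem nondeg_core {n : ℕ} (hn : 0 < n)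
    (hdivE : ∀ b : Pic0 K E, ∃ a : Pic0 K E, (n : ℤ) • a = b) {x : Pic0 K F} (a : TorsRep n x)
    (h : E) (τ : E ≃ₐ[F] E) (ζ : K) (hh : h ^ n = algebraMap F E a.f)
    (hτ : τ h = algebraMap K E ζ * h) (hζ : ζ ≠ 1) :
    ∃ y : Pic0 K F, (n : ℤ) • y = 0 ∧ weil n x y ≠ 1 := by
  classical
  have hPD : HasPrincipalDivisors K E := Fermat.Agent.S37.HeckeInputs.hasPrincipalDivisors
  have hn0 : (n : ℤ) ≠ 0 := by exact_mod_cast hn.ne'
  set Dh : Divisor K E := Divisor.pullback E a.D with hDhdef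
  have hDh : IsDivOf Dh h := by
    apply nondeg_isDivOf_of_pow hn
    rw [hh, hDhdef, ← map_zsmul]
    exact isDivOf_pullback a.div
  have hh0 : h ≠ 0 := hDh.1
  set g : SemilinearAut K E := SemilinearAut.ofAlgAut (τ.restrictScalars K) with hg
  have hinf : Infinite (Place K E) := infinite_place (K := K)
  obtain ⟨Q, hQ⟩ := Infinite.exists_notMem_finset
    (Dh.support ∪ Dh.support.image (fun w => g⁻¹ • w))
  rw [Finset.mem_union, not_or] at hQ
  have hQ1 : Dh Q = 0 := by simpa using hQ.1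
  have hQ2 : Dh (g • Q) = 0 := by
    by_contra hne
    apply hQ.2
    rw [Finset.mem_image]
    exact ⟨g • Q, by simpa using hne, inv_smul_smul g Q⟩
  set T : Divisor K E := pt (g • Q) - pt Q with hT
  have hTdeg : Divisor.degree T = 0 := degree_pt_sub_pt _ _
  obtain ⟨at', hat⟩ := hdivE (cls T)
  obtain ⟨A, hAdeg, hAcls, hAs⟩ := nondeg_exists_rep at' (Dh.support ∪ {Q, g • Q})
  have hA1 : ∀ w, Dh w ≠ 0 → A w = 0 := fun w hw =>
    hAs w (Finset.mem_union_left _ (by simpa using hw))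
  have hT1 : ∀ w, Dh w ≠ 0 → T w = 0 := by
    intro w hw
    have h1 : g • Q ≠ w := fun e => hw (e ▸ hQ2)
    have h2 : Q ≠ w := fun e => hw (e ▸ hQ1)
    rw [hT, Finsupp.sub_apply, pt, pt, Finsupp.single_eq_of_ne' h1, Finsupp.single_eq_of_ne' h2,
      sub_zero]
  have hT2 : ∀ w, T w ≠ 0 → Dh w = 0 := fun w hw => by
    by_contra hne
    exact hw (hT1 w hne)
  have hnAdeg : Divisor.degree ((n : ℤ) • A - T) = 0 := by
    rw [map_sub, map_zsmul, hAdeg, hTdeg, smul_zero, sub_zero]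
  obtain ⟨z, hz⟩ : ∃ z : E, IsDivOf ((n : ℤ) • A - T) z := by
    apply (cls_eq_zero_iff hnAdeg).1
    rw [cls_sub (by rw [map_zsmul, hAdeg, smul_zero]) hTdeg, nondeg_cls_zsmul hAdeg, hAcls, hat,
      sub_self]
  have hz1 : ∀ w, Dh w ≠ 0 → ((n : ℤ) • A - T) w = 0 := by
    intro w hw
    rw [Finsupp.sub_apply, Finsupp.smul_apply, hA1 w hw, hT1 w hw, smul_zero, sub_zero]
  set B : Divisor K F := Divisor.pushforward F A with hB
  have hBdeg : Divisor.degree B = 0 := by rw [hB, Divisor.degree_pushforward, hAdeg]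
  have hpushT : Divisor.pushforward F T = 0 := by
    rw [hT, map_sub, pt, pt, Divisor.pushforward_single, Divisor.pushforward_single,
      Fermat.Agent.S37.HeckeInputs.place_inertiaDeg_eq_one,
      Fermat.Agent.S37.HeckeInputs.place_inertiaDeg_eq_one, hg, restrict_smul_ofAlgAut, sub_self]
  have hBdiv : IsDivOf ((n : ℤ) • B) (Algebra.norm F z) := by
    have := isDivOf_pushforward (F := F) hz
    rwa [map_sub, map_zsmul, hpushT, sub_zero] at this
  let b : TorsRep n (cls B) := ⟨B, Algebra.norm F z, hBdeg, rfl, hBdiv⟩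
  refine ⟨cls B, ?_, ?_⟩
  · rw [← nondeg_cls_zsmul hBdeg, cls_eq_zero_iff (by rw [map_zsmul, hBdeg, smul_zero])]
    exact ⟨_, hBdiv⟩
  have hdisj : Disjoint a.D.support b.D.support := by
    rw [Finset.disjoint_left]
    intro v hv hv'
    rw [Finsupp.mem_support_iff] at hv hv'
    have hv'' : Divisor.pushforward F A v ≠ 0 := hv'
    rw [Divisor.pushforward_apply] at hv''
    obtain ⟨w, hw, hw'⟩ := Finset.exists_ne_zero_of_sum_ne_zero hv''
    have hwv : w.restrict F = v := by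
      by_contra hne
      rw [if_neg hne] at hw'
      exact hw' rfl
    have h1 : Dh w ≠ 0 := by
      rw [hDhdef, Divisor.pullback_apply, hwv]
      exact mul_ne_zero (by exact_mod_cast (w.ramificationIndex_pos (F := F)).ne') hv
    exact (Finsupp.mem_support_iff.1 hw) (hA1 w h1)
  -- unit conditions
  have U1 : UnitOn h A := ⟨hh0, fun w hw => by
    rw [← hDh.2 w]
    by_contra hne
    exact hw (hA1 w hne)⟩
  have U2a : UnitOn h (pt (g • Q)) := ⟨hh0, fun w hw => by
    have : g • Q = w := by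
      by_contra hne
      exact hw (by rw [pt, Finsupp.single_eq_of_ne' hne])
    rw [← this, ← hDh.2, hQ2]⟩
  have U2b : UnitOn h (pt Q) := ⟨hh0, fun w hw => by
    have : Q = w := by
      by_contra hne
      exact hw (by rw [pt, Finsupp.single_eq_of_ne' hne])
    rw [← this, ← hDh.2, hQ1]⟩
  have U2 : UnitOn h T := U2a.sub U2b
  have U3 : UnitOn z Dh := ⟨hz.1, fun w hw => by rw [← hz.2 w, hz1 w hw]⟩
  have U4 : UnitOn (algebraMap F E a.f) A := by
    rw [← hh]
    exact U1.pow n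
  -- the computation
  have E1 : evDiv a.f B = evDiv h A ^ n := by
    rw [hB, evDiv_pushforward a.f A U4, ← hh, evDiv_pow U1]
  have E2 : evDiv (Algebra.norm F z) a.D = evDiv z Dh := evDiv_norm z a.D U3
  have hdisj2 : Disjoint Dh.support ((n : ℤ) • A - T).support := by
    rw [Finset.disjoint_left]
    intro w hw hw'
    rw [Finsupp.mem_support_iff] at hw hw'
    exact hw' (hz1 w hw)
  have E3 : evDiv h ((n : ℤ) • A - T) = evDiv z Dh := weil_reciprocity hDh hz hdisj2
  have E4 : evDiv h ((n : ℤ) • A - T) = evDiv h A ^ n / evDiv h T := by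
    rw [evDiv_sub (U1.zsmul _) U2, evDiv_zsmul U1, zpow_natCast]
  have E5 : evDiv h T = ev (g • Q) h / ev Q h := by
    rw [hT, evDiv_sub U2a U2b, pt, pt, evDiv_single, evDiv_single, zpow_one, zpow_one]
  have hordQ : Q.ord h = 0 := by rw [← hDh.2, hQ1]
  have hordgQ : (g • Q).ord h = 0 := by rw [← hDh.2, hQ2]
  have E6 : ev Q h = ζ * ev (g • Q) h := by
    have h1 := ev_smul g Q h
    have h2 : g • h = algebraMap K E ζ * h := by
      rw [hg, SemilinearAut.ofAlgAut_smul]
      exact hτ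
    rw [h2, hg, SemilinearAut.baseAut_ofAlgAut, ← hg,
      ev_mul (by rw [ord_algebraMap]) hordgQ.ge, ev_algebraMap] at h1
    exact h1.symm
  have hevA : evDiv h A ≠ 0 := U1.evDiv_ne_zero
  have hevT : evDiv h T ≠ 0 := U2.evDiv_ne_zero
  have hevgQ : ev (g • Q) h ≠ 0 := ev_ne_zero_of_ord_eq_zero hh0 hordgQ
  have hevQ : ev Q h ≠ 0 := ev_ne_zero_of_ord_eq_zero hh0 hordQ
  have hζ0 : ζ ≠ 0 := by
    rintro rfl
    rw [zero_mul] at E6
    exact hevQ E6
  rw [weil_eq hn a b hdisj, weilRep]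
  show evDiv a.f B / evDiv (Algebra.norm F z) a.D ≠ 1
  rw [E1, E2, ← E3, E4, E5, E6]
  intro hcontra
  apply hζ
  have hpow : evDiv h A ^ n ≠ 0 := pow_ne_zero _ hevA
  field_simp at hcontra
  exact hcontra.symm

end core

variable {K : Type u} {F : Type v} [Field K] [Field F] [Algebra K F] [IsAlgClosed K] [CharZero K]
  [IsFF1 K F] [NonConst K F]

/-- B6 : `x ≠ 0`, `(D, f)` a representative: `f` is not an `n`-th power.  `E, h, τ, ζ` from B4.
`Q` a place of `E` with `h` a unit at `Q` and `τ Q`; `[τ Q - Q] = n ã`; choose `Ã` representing `ã`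
with support off `supp (div h)`; `n Ã = τ Q - Q + div z`; `y := [N Ã]`, `f_y := N z`.
`e_n(x, y) = f(N Ã) / (N z)(D) = h(n Ã) / z(div h) = h(τ Q - Q) · h(div z) / z(div h) = ζ⁻¹`. -/
theorem weil_nondegenerate (hdiv : Pic0Divisible.{u, v} K) {n : ℕ} (hn : 0 < n) {x : Pic0 K F}
    (hx : (n : ℤ) • x = 0) (hx0 : x ≠ 0) :
    ∃ y : Pic0 K F, (n : ℤ) • y = 0 ∧ weil n x y ≠ 1 := by
  obtain ⟨a, -⟩ := exists_torsRep hx ∅
  have hnot : ¬ ∃ h : F, h ^ n = a.f := by
    rintro ⟨h, hh⟩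
    apply hx0
    rw [← a.cls_eq, cls_eq_zero_iff a.deg]
    exact ⟨h, nondeg_isDivOf_of_pow hn (by rw [hh]; exact a.div)⟩
  obtain ⟨E, _, _, _, _, _, h, τ, ζ, hh, hτ, hζ⟩ :=
    exists_kummer (K := K) n hn a.f a.div.1 hnot
  obtain ⟨i1, i2⟩ := isFF1_of_finite (K := K) (F := F) E
  exact nondeg_core hn (fun b => hdiv E n hn b) a h τ ζ hh hτ hζ

end Fermat.Agent.S19.Weil
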