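/-
S19 Part B (Weil pairing), B5: divisibility of `Pic0`.
Over `ℂ`: `S27.E.card_torsion_of_abelJacobi` proves `Function.Surjective E` for a homomorphism
`E : ℂ^g →+ Pic0` inside its proof (that part is reproduced here).  Descent `ℂ → K`: the proof of
`S27.H.exists_pic0Map_eq` only uses that the orbit of the class under `conj` is finite; the solutions
of `n a = pic0Map b` form a coset of the (finite) torsion subgroup, stable under `conj`.
Architect helper32, proofs helper24.
-/
import Fermat.Agent.S19.Weil.Defs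
import Fermat.Agent.S27.General

set_option autoImplicit false
set_option linter.style.haveILetI false

noncomputable section

namespace Fermat.Agent.S19.Weil

open AlgebraicCurve Fermat.Agent.S24.FF Fermat.Agent.S27 IntermediateField

universe u v

namespace Divisible

section Complex

variable {F : Type*} [Field F] [Algebra ℂ F] [IsFF1 ℂ F] [NonConst ℂ F]

/-- the Abel-Jacobi homomorphism is onto -/
theorem surjective_of_abelJacobi
    (hchart : ∀ p : Place ℂ F, ∃ χ : Chart F, χ.pl χ.c = p ∧ E.IsNhdChart χ)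
    (E₁ : (Fin (genusFF ℂ F) → ℂ) →+ Pic0 ℂ F)
    (hE : ∀ χ : Chart F, ∃ A : ℂ → (Fin (genusFF ℂ F) → ℂ),
      ∀ τ ∈ χ.dom, ∀ τ' ∈ χ.dom, cls (pt (χ.pl τ) - pt (χ.pl τ')) = E₁ (A τ - A τ')) :
    Function.Surjective E₁ := by
  classical
  have : Infinite (Place ℂ F) := infinite_place (K := ℂ)
  obtain ⟨P0⟩ : Nonempty (Place ℂ F) := inferInstance
  have hrange : ∀ v : Place ℂ F, cls (pt v - pt P0) ∈ E₁.range := by
    intro v
    have key := E.eq_of_const_on_charts
      (fun w : Place ℂ F => (QuotientAddGroup.mk (cls (pt w - pt P0)) : Pic0 ℂ F ⧸ E₁.range))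
      (fun p => by
        obtain ⟨χ, hχ, hn⟩ := hchart p
        refine ⟨χ, hχ, hn, fun τ hτ => ?_⟩
        obtain ⟨A, hA⟩ := hE χ
        have h1 := hA τ hτ χ.c (E.chart_c_mem_dom χ)
        rw [hχ] at h1
        rw [QuotientAddGroup.eq]
        refine ⟨A χ.c - A τ, ?_⟩
        have h2 : pt (χ.pl τ) - pt p = (pt (χ.pl τ) - pt P0) - (pt p - pt P0) := by abel
        rw [h2, E.cls_sub (E.degree_pt_sub_pt _ _) (E.degree_pt_sub_pt _ _)] at h1
        have h3 : A χ.c - A τ = -(A τ - A χ.c) := by abel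
        rw [h3, map_neg, ← h1]
        abel) P0 v
    have h0 : cls (pt P0 - pt P0 : Divisor ℂ F) = 0 := by
      rw [sub_self]
      exact E.cls_eq_zero_of_principal (by simp) (zero_mem _)
    simp only [h0] at key
    rw [QuotientAddGroup.mk_zero, QuotientAddGroup.eq_zero_iff] at key
    exact key
  have hall : ∀ D : Divisor ℂ F, cls (D - Divisor.degree D • pt P0) ∈ E₁.range := by
    intro D
    induction D using Finsupp.induction_linear with
    | zero =>
      have : cls (0 - Divisor.degree (0 : Divisor ℂ F) • pt P0) = 0 := by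
        rw [map_zero, zero_smul, sub_zero]
        exact E.cls_eq_zero_of_principal (by simp) (zero_mem _)
      rw [this]
      exact zero_mem _
    | add f g hf hg =>
      have h1 : f + g - Divisor.degree (f + g) • pt P0
          = (f - Divisor.degree f • pt P0) + (g - Divisor.degree g • pt P0) := by
        rw [map_add, add_smul]; abel
      have h6 : ∀ f : Divisor ℂ F, Divisor.degree (f - Divisor.degree f • pt P0) = 0 := by
        intro f
        rw [map_sub, map_zsmul, E.degree_pt]; simp
      rw [h1, E.cls_add (h6 f) (h6 g)]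
      exact add_mem hf hg
    | single a b =>
      have h5 : (Finsupp.single a b : Divisor ℂ F) = b • pt a := by
        rw [pt, Finsupp.smul_single, smul_eq_mul, mul_one]
      have h1 : (Finsupp.single a b : Divisor ℂ F)
            - Divisor.degree (Finsupp.single a b : Divisor ℂ F) • pt P0
          = b • (pt a - pt P0) := by
        rw [Divisor.degree_single, deg_eq_one, h5, smul_sub]; simp
      rw [h1, E.cls_zsmul (E.degree_pt_sub_pt a P0)]
      exact zsmul_mem (hrange a) b
  intro y
  obtain ⟨⟨D, hD⟩, rfl⟩ := Pic0.mk_surjective y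
  have h := hall D
  have hD' : Divisor.degree D = 0 := hD
  rw [hD', zero_smul, sub_zero] at h
  obtain ⟨u, hu⟩ := h
  refine ⟨u, ?_⟩
  rw [hu]
  exact dif_pos hD

/-- `Pic0` of a complex function field is divisible -/
theorem divisible_complex (m : ℕ) (hm : 0 < m) (b : Pic0 ℂ F) :
    ∃ a : Pic0 ℂ F, (m : ℤ) • a = b := by
  haveI : Module.Free ℂ (WDiff ℂ F) := Module.Free.of_divisionRing ℂ (WDiff ℂ F)
  let ω : Module.Basis (Fin (genusFF ℂ F)) ℂ (WDiff ℂ F) :=
    Module.finBasisOfFinrankEq ℂ (WDiff ℂ F) finrank_wdiff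
  obtain ⟨E₁, -, hE⟩ := exists_abel ω
  obtain ⟨u, rfl⟩ := surjective_of_abelJacobi exists_chart_nhd E₁
    (fun χ => ⟨χ.ab ω, hE χ⟩) b
  refine ⟨E₁ ((m : ℂ)⁻¹ • u), ?_⟩
  rw [← map_zsmul]
  congr 1
  have hm' : (m : ℂ) ≠ 0 := by exact_mod_cast hm.ne'
  ext i
  simp [hm']

end Complex

section Descent

open Fermat.Agent.S27.H

variable {K F K' F' : Type*} [Field K] [Field F] [Field K'] [Field F']
  [Algebra K F] [Algebra K K'] [Algebra K' F'] [Algebra F F'] [Algebra K F']
  [IsScalarTower K F F'] [IsScalarTower K K' F']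
  [IsAlgClosed K] [CharZero K] [IsAlgClosed K'] [CharZero K'] [IsFF1 K F] [IsFF1 K' F']
  [IsConstExt K F K' F']

/-- a class with finite orbit under `Aut(K'/K)` is defined over `K` -/
theorem exists_pic0Map_eq_of_finite_orbit (hF : ∃ x : F, Transcendental K x)
    (hR' : RiemannThm K' F') (c : Pic0 K' F') (s : Set (Pic0 K' F')) (hs : s.Finite)
    (hc : ∀ σ : K' ≃ₐ[K] K', conj K F K' F' σ • c ∈ s) :
    ∃ c₀ : Pic0 K F, pic0Map K F K' F' c₀ = c := by
  classical
  set φ := conj K F K' F' with hφ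
  -- the stabiliser of `c`
  have hΓc : ((MulAction.stabilizer (SemiAut K' F') c).comap φ).FiniteIndex :=
    Rigidity.finiteIndex_comap_stabilizer φ c s hs hc
  set Γc := (MulAction.stabilizer (SemiAut K' F') c).comap φ with hΓcdef
  obtain ⟨D', rfl⟩ := Pic0.mk_surjective c
  obtain ⟨v0⟩ := exists_place hF
  set P0 := eps K' F' v0 with hP0
  obtain ⟨m, E, hE0, hEp, huniq⟩ := exists_unique_effective hR' (D' : Divisor K' F') P0
  -- `Γc` fixes `E`
  have hfixE : ∀ σ ∈ Γc, φ σ • E = E := by
    intro σ hσ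
    apply huniq _ (SemiAut.smul_nonneg _ hE0)
    have h1 : φ σ • Pic0.mk D' = Pic0.mk D' := hσ
    rw [SemiAut.smul_mk] at h1
    have h2 := QuotientAddGroup.eq.mp h1
    rw [AddSubgroup.mem_addSubgroupOf] at h2
    have h3 : -(φ σ • (D' : Divisor K' F')) + (D' : Divisor K' F') ∈
        Divisor.principal (K := K') (F := F') := h2
    have h4 := SemiAut.smul_mem_principal (φ σ) hEp
    have h5 : φ σ • (Finsupp.single P0 m : Divisor K' F') = Finsupp.single P0 m := by
      rw [SemiAut.smul_single, hP0, hφ, conj_smul_eps]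
    have h6 : φ σ • E - ((D' : Divisor K' F') + Finsupp.single P0 m) =
        φ σ • (E - ((D' : Divisor K' F') + Finsupp.single P0 m)) -
          (-(φ σ • (D' : Divisor K' F')) + (D' : Divisor K' F')) := by
      rw [smul_sub, smul_add, h5]
      abel
    rw [h6]
    exact AddSubgroup.sub_mem _ h4 h3
  -- the support of `E` consists of rational places
  have hsupp : ∀ w ∈ E.support, ∃ v : Place K F, w = eps K' F' v := by
    intro w hw
    obtain ⟨Γ₁, hΓ₁, hfix⟩ := Rigidity.exists_finiteIndex_fixing φ Γc w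
      (E.support : Set (Place K' F')) (Finset.finite_toSet _) (by
        intro σ hσ
        rw [Finset.mem_coe, Finsupp.mem_support_iff, ← hfixE σ hσ, SemiAut.smul_apply_smul]
        exact Finsupp.mem_support_iff.mp hw)
    exact exists_eq_eps_of_fixed hF w Γ₁ hfix
  obtain ⟨E₀, hE₀⟩ := exists_epsDiv_eq E hsupp
  -- degrees
  have hdegp : Divisor.degree (E - ((D' : Divisor K' F') + Finsupp.single P0 m)) = 0 := by
    obtain ⟨f, -, hf⟩ := hEp
    exact degree_eq_zero_of_forall_ord hf
  have hD'0 : Divisor.degree (D' : Divisor K' F') = 0 := D'.2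
  have hdegE : Divisor.degree E = m := by
    rw [map_sub, map_add, hD'0, Divisor.degree_single, deg_eq_one] at hdegp
    simp at hdegp
    linarith
  have hdeg0 : Divisor.degree (E₀ - Finsupp.single v0 m) = 0 := by
    rw [map_sub, ← degree_epsDiv (K' := K') (F' := F') E₀, hE₀, hdegE, Divisor.degree_single,
      deg_eq_one]
    simp
  refine ⟨Pic0.mk ⟨E₀ - Finsupp.single v0 m, hdeg0⟩, ?_⟩
  have hmap : epsDiv K' F' (E₀ - Finsupp.single v0 m) = E - Finsupp.single P0 m := by
    have h : epsDiv K' F' (Finsupp.single v0 m) = Finsupp.single (eps K' F' v0) m :=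
      Finsupp.mapDomain_single
    rw [map_sub, hE₀, h]
  show QuotientAddGroup.map _ _ _ _ (QuotientAddGroup.mk _) = QuotientAddGroup.mk _
  rw [QuotientAddGroup.map_mk, QuotientAddGroup.eq, AddSubgroup.mem_addSubgroupOf]
  show -(epsDiv K' F' (E₀ - Finsupp.single v0 m)) + (D' : Divisor K' F') ∈
    Divisor.principal (K := K') (F := F')
  rw [hmap]
  have h7 : -(E - Finsupp.single P0 m) + (D' : Divisor K' F') =
      -(E - ((D' : Divisor K' F') + Finsupp.single P0 m)) := by abel
  rw [h7]
  exact AddSubgroup.neg_mem _ hEp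

/-- classes coming from `F` are fixed by `Aut(K'/K)` -/
theorem conj_smul_pic0Map (σ : K' ≃ₐ[K] K') (b : Pic0 K F) :
    conj K F K' F' σ • pic0Map K F K' F' b = pic0Map K F K' F' b := by
  obtain ⟨D, rfl⟩ := Pic0.mk_surjective b
  have h : pic0Map K F K' F' (Pic0.mk D) = Pic0.mk ⟨epsDiv K' F' (D : Divisor K F), by
      rw [Divisor.mem_degZero, degree_epsDiv]; exact D.2⟩ := rfl
  rw [h, SemiAut.smul_mk]
  congr 1
  apply Subtype.ext
  rw [SemiAut.coe_degZeroSMulHom]
  exact conj_smul_epsDiv σ _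

/-- descent of divisibility along a constant field extension with finite torsion -/
theorem divisible_descent (hF : ∃ x : F, Transcendental K x) (hR' : RiemannThm K' F')
    (m : ℕ) (hfin : Finite (Pic0.torsion K' F' m))
    (hdiv : ∀ b' : Pic0 K' F', ∃ a' : Pic0 K' F', (m : ℤ) • a' = b') (b : Pic0 K F) :
    ∃ a : Pic0 K F, (m : ℤ) • a = b := by
  obtain ⟨a', ha'⟩ := hdiv (pic0Map K F K' F' b)
  have hs : ((fun t : Pic0 K' F' => a' + t) ''
      (Pic0.torsion K' F' m : Set (Pic0 K' F'))).Finite := (Set.toFinite _).image _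
  obtain ⟨a, ha⟩ := exists_pic0Map_eq_of_finite_orbit hF hR' a' _ hs (fun σ => by
    refine ⟨conj K F K' F' σ • a' - a', ?_, by simp⟩
    have h1 : (m : ℤ) • (conj K F K' F' σ • a') = conj K F K' F' σ • ((m : ℤ) • a') :=
      smul_comm _ _ _
    rw [SetLike.mem_coe, Pic0.mem_torsion, zsmul_sub, h1, ha', conj_smul_pic0Map, sub_self])
  refine ⟨a, ?_⟩
  apply pic0Map_injective (K' := K') (F' := F')
  rw [map_zsmul, ha, ha']

end Descent

end Divisible

open Fermat.Agent.S27.H in
theorem pic0Divisible (K : Type u) [Field K] [IsAlgClosed K] [CharZero K]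
    (hK : Nonempty (K →+* ℂ)) : Pic0Divisible.{u, v} K := by
  intro F _ _ _ hNC m hm b
  have hF : ∃ x : F, Transcendental K x := hNC.out
  obtain ⟨φ⟩ := hK
  letI : Algebra K ℂ := φ.toAlgebra
  obtain ⟨F', _, _, _, _, _, _, hce⟩ := exists_constExt.{u, v, 0} K F ℂ
  haveI := hce
  haveI : IsFF1 ℂ F' := isFF1_of_isConstExt K F ℂ F' hF
  have hF' : ∃ x : F', Transcendental ℂ x := by
    obtain ⟨x, hx⟩ := hF
    exact ⟨_, transcendental_algebraMap (K' := ℂ) (F' := F') hx⟩
  haveI : NonConst ℂ F' := ⟨hF'⟩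
  have h1 : Nat.card (Pic0.torsion ℂ F' m) = m ^ (2 * genusFF ℂ F') :=
    card_torsion_complex F' m hm
  have hfin : Finite (Pic0.torsion ℂ F' m) := by
    apply Nat.finite_of_card_ne_zero
    rw [h1]
    exact (pow_pos hm _).ne'
  exact Divisible.divisible_descent (K' := ℂ) (F' := F') hF (riemannThm ℂ F' hF') m hfin
    (Divisible.divisible_complex m hm) b

end Fermat.Agent.S19.Weil
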